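import Fermat.Agent.WeilExplicit.Transform
import Mathlib.Analysis.SpecialFunctions.SmoothTransition
import Mathlib.MeasureTheory.Integral.ExpDecay
import Mathlib.MeasureTheory.Integral.IntegralEqImproper

/-!
# The test functions behind Li's coefficients

`∫_0^∞ q_n v exp (-a v) dv = 1 - (1 - 1/a) ^ n` for `re a > 0` and a polynomial `q_n`; cut off
smoothly to `[0, m + 1]` the integral converges to this value and stays `O (1 / |a|)`, uniformly
in `m` and in `re a ≥ η`.
-/

set_option autoImplicit false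

noncomputable section

namespace FA.WeilExplicit

open Complex MeasureTheory Filter Topology Finset Asymptotics
open scoped Nat

theorem integrableOn_pow_mul_exp (k : ℕ) {b : ℝ} (hb : 0 < b) :
    IntegrableOn (fun v : ℝ => v ^ k * Real.exp (-b * v)) (Set.Ioi 0) := by
  refine integrable_of_isBigO_exp_neg (b := b / 2) (half_pos hb) (by fun_prop) ?_
  have h : (fun v : ℝ => v ^ k * Real.exp (-(b / 2) * v)) =O[atTop] fun _ => (1 : ℝ) := by
    refine Tendsto.isBigO_one ℝ
      ((tendsto_rpow_mul_exp_neg_mul_atTop_nhds_zero k (b / 2) (half_pos hb)).congr fun v => ?_)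
    rw [Real.rpow_natCast]
  refine (h.mul (isBigO_refl (fun v : ℝ => Real.exp (-(b / 2) * v)) atTop)).congr
    (fun v => ?_) fun v => one_mul _
  rw [mul_assoc, ← Real.exp_add]
  ring_nf

theorem norm_pow_mul_cexp (k : ℕ) (a : ℂ) {v : ℝ} (hv : 0 ≤ v) :
    ‖(v : ℂ) ^ k * cexp (-a * v)‖ = v ^ k * Real.exp (-a.re * v) := by
  rw [norm_mul, norm_pow, Complex.norm_real, Real.norm_of_nonneg hv, Complex.norm_exp]
  simp

theorem integrableOn_pow_mul_cexp (k : ℕ) {a : ℂ} (ha : 0 < a.re) :
    IntegrableOn (fun v : ℝ => (v : ℂ) ^ k * cexp (-a * v)) (Set.Ioi 0) := by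
  refine (integrableOn_pow_mul_exp k ha).mono' (by fun_prop)
    ((ae_restrict_mem measurableSet_Ioi).mono fun v hv => ?_)
  rw [norm_pow_mul_cexp k a (le_of_lt hv)]

theorem tendsto_pow_mul_cexp (k : ℕ) {a : ℂ} (ha : 0 < a.re) :
    Tendsto (fun v : ℝ => (v : ℂ) ^ k * cexp (-a * v)) atTop (𝓝 0) := by
  rw [tendsto_zero_iff_norm_tendsto_zero]
  refine (tendsto_rpow_mul_exp_neg_mul_atTop_nhds_zero k a.re ha).congr' ?_
  filter_upwards [eventually_ge_atTop 0] with v hv
  rw [norm_pow_mul_cexp k a hv, Real.rpow_natCast]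

theorem integral_pow_mul_cexp (k : ℕ) {a : ℂ} (ha : 0 < a.re) :
    ∫ v : ℝ in Set.Ioi 0, (v : ℂ) ^ k * cexp (-a * v) = k ! / a ^ (k + 1) := by
  have ha0 : a ≠ 0 := fun h => by rw [h] at ha; simp at ha
  induction k with
  | zero =>
    have := integral_exp_mul_complex_Ioi (a := -a) (by simpa using ha) 0
    simp only [pow_zero, one_mul, Nat.factorial_zero, Nat.cast_one, zero_add, pow_one]
    rw [this]
    simp [one_div]
  | succ k ih =>
    have hd : ∀ v ∈ Set.Ici (0 : ℝ), HasDerivAt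
        (fun w : ℝ => -((w : ℂ) ^ (k + 1) * cexp (-a * w)) / a)
        ((v : ℂ) ^ (k + 1) * cexp (-a * v) - ((k + 1 : ℕ) / a) * ((v : ℂ) ^ k * cexp (-a * v)))
        v := fun v _ => by
      have h1 : HasDerivAt (fun w : ℂ => -(w ^ (k + 1) * cexp (-a * w)) / a)
          ((v : ℂ) ^ (k + 1) * cexp (-a * v) - ((k + 1 : ℕ) / a) * ((v : ℂ) ^ k * cexp (-a * v)))
          (v : ℂ) := by
        refine ((((hasDerivAt_pow (k + 1) (v : ℂ)).mul
          ((hasDerivAt_id' (v : ℂ)).const_mul (-a)).cexp).neg).div_const a).congr_deriv ?_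
        simp only [Nat.add_sub_cancel, mul_one]
        field_simp
        ring
      exact h1.comp_ofReal
    have hi1 := integrableOn_pow_mul_cexp (k + 1) ha
    have hi2 := (integrableOn_pow_mul_cexp k ha).const_mul (((k + 1 : ℕ) : ℂ) / a)
    have h := integral_Ioi_of_hasDerivAt_of_tendsto' hd (hi1.sub hi2)
      (by simpa using ((tendsto_pow_mul_cexp (k + 1) ha).neg).div_const a)
    rw [integral_sub hi1 hi2, integral_const_mul, ih] at h
    simp only [ofReal_zero, zero_pow (Nat.succ_ne_zero k), zero_mul, neg_zero, zero_div,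
      sub_self] at h
    rw [sub_eq_zero.1 h, Nat.factorial_succ]
    push_cast
    field_simp
    ring

/-- The polynomial of the `n`-th coefficient of Li. -/
def liPoly (n : ℕ) (v : ℝ) : ℝ :=
  ∑ i ∈ range n, (-1) ^ i * n.choose (i + 1) / i ! * v ^ i

theorem contDiff_liPoly (n : ℕ) {k : WithTop ℕ∞} : ContDiff ℝ k (liPoly n) := by
  unfold liPoly
  fun_prop

theorem integrableOn_liPoly (n : ℕ) {a : ℂ} (ha : 0 < a.re) :
    IntegrableOn (fun v : ℝ => (liPoly n v : ℂ) * cexp (-a * v)) (Set.Ioi 0) := by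
  have e : (fun v : ℝ => (liPoly n v : ℂ) * cexp (-a * v)) = fun v : ℝ => ∑ i ∈ range n,
      (((-1) ^ i * n.choose (i + 1) / i ! : ℝ) : ℂ) * ((v : ℂ) ^ i * cexp (-a * v)) := by
    funext v
    rw [liPoly]
    push_cast
    rw [sum_mul]
    exact sum_congr rfl fun i _ => by ring
  rw [e]
  exact integrable_finsetSum _ fun i _ => (integrableOn_pow_mul_cexp i ha).const_mul _

/-- **The transform of the polynomial.** -/
theorem integral_liPoly (n : ℕ) {a : ℂ} (ha : 0 < a.re) :
    ∫ v : ℝ in Set.Ioi 0, (liPoly n v : ℂ) * cexp (-a * v) = 1 - (1 - a⁻¹) ^ n := by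
  have e : (fun v : ℝ => (liPoly n v : ℂ) * cexp (-a * v)) = fun v : ℝ => ∑ i ∈ range n,
      (((-1) ^ i * n.choose (i + 1) / i ! : ℝ) : ℂ) * ((v : ℂ) ^ i * cexp (-a * v)) := by
    funext v
    rw [liPoly]
    push_cast
    rw [sum_mul]
    exact sum_congr rfl fun i _ => by ring
  rw [e, integral_finsetSum _ fun i _ => (integrableOn_pow_mul_cexp i ha).const_mul _,
    show (1 - a⁻¹) = -a⁻¹ + 1 by ring, add_pow, sum_range_succ']
  simp only [one_pow, mul_one, pow_zero, Nat.choose_zero_right, Nat.cast_one,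
    sub_add_eq_sub_sub, integral_const_mul, integral_pow_mul_cexp _ ha]
  rw [sub_sub, add_comm (∑ k ∈ range n, _) (1 : ℂ), sub_add_cancel_left, ← sum_neg_distrib]
  refine sum_congr rfl fun i _ => ?_
  have ha0 : a ≠ 0 := fun h => by rw [h] at ha; simp at ha
  have hi : ((i ! : ℕ) : ℂ) ≠ 0 := Nat.cast_ne_zero.2 i.factorial_ne_zero
  rw [neg_pow a⁻¹, inv_pow]
  push_cast
  field_simp
  ring

/-- A smooth cut-off to `[0, m + 1]`, at least `1` on `[1/m, m]`. -/
def cutoff (m : ℕ) (v : ℝ) : ℝ :=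
  Real.smoothTransition ((m : ℝ) * v) * Real.smoothTransition ((m : ℝ) + 1 - v)

theorem cutoff_nonneg (m : ℕ) (v : ℝ) : 0 ≤ cutoff m v :=
  mul_nonneg (Real.smoothTransition.nonneg _) (Real.smoothTransition.nonneg _)

theorem cutoff_le_one (m : ℕ) (v : ℝ) : cutoff m v ≤ 1 :=
  mul_le_one₀ (Real.smoothTransition.le_one _) (Real.smoothTransition.nonneg _)
    (Real.smoothTransition.le_one _)

theorem cutoff_eq_zero {m : ℕ} {v : ℝ} (hv : v ≤ 0 ∨ (m : ℝ) + 1 ≤ v) : cutoff m v = 0 := by
  rcases hv with h | h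
  · rw [cutoff, Real.smoothTransition.zero_of_nonpos
      (mul_nonpos_of_nonneg_of_nonpos (Nat.cast_nonneg m) h), zero_mul]
  · rw [cutoff, Real.smoothTransition.zero_of_nonpos (x := (m : ℝ) + 1 - v) (by linarith),
      mul_zero]

theorem contDiff_cutoff (m : ℕ) {k : ℕ∞} : ContDiff ℝ k (cutoff m) :=
  (Real.smoothTransition.contDiff.comp (contDiff_const.mul contDiff_id)).mul
    (Real.smoothTransition.contDiff.comp (contDiff_const.sub contDiff_id))

theorem tendsto_cutoff {v : ℝ} (hv : 0 < v) : Tendsto (fun m => cutoff m v) atTop (𝓝 1) := by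
  refine tendsto_const_nhds.congr' ?_
  filter_upwards [tendsto_natCast_atTop_atTop.eventually (eventually_ge_atTop (max v (1 / v)))]
    with m hm
  rw [cutoff, Real.smoothTransition.one_of_one_le, Real.smoothTransition.one_of_one_le, mul_one]
  · linarith [le_of_max_le_left hm]
  · have := le_of_max_le_right hm
    rw [div_le_iff₀ hv] at this
    exact this

/-- The cut-off polynomial. -/
def liBump (n m : ℕ) (v : ℝ) : ℝ := liPoly n v * cutoff m v

/-- Its transform `∫ q χ exp (-a v)`. -/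
def liBumpTransform (n m : ℕ) (a : ℂ) : ℂ := ∫ v : ℝ, (liBump n m v : ℂ) * cexp (-a * v)

theorem tendsto_liBumpTransform (n : ℕ) {a : ℂ} (ha : 0 < a.re) :
    Tendsto (fun m => liBumpTransform n m a) atTop (𝓝 (1 - (1 - a⁻¹) ^ n)) := by
  rw [← integral_liPoly n ha, ← integral_indicator measurableSet_Ioi]
  refine tendsto_integral_of_dominated_convergence
    ((Set.Ioi 0).indicator fun v => ‖(liPoly n v : ℂ) * cexp (-a * v)‖)
    (fun m => ((continuous_ofReal.comp ((contDiff_liPoly n (k := 0)).continuous.mul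
      (contDiff_cutoff m (k := 0)).continuous)).mul (by fun_prop)).aestronglyMeasurable)
    ((integrable_indicator_iff measurableSet_Ioi).2 (integrableOn_liPoly n ha).norm)
    (fun m => Eventually.of_forall fun v => ?_) (Eventually.of_forall fun v => ?_)
  · rcases le_or_gt v 0 with hv | hv
    · simp [liBump, cutoff_eq_zero (Or.inl hv),
        Set.indicator_of_notMem (show v ∉ Set.Ioi (0 : ℝ) from not_lt.2 hv)]
    · rw [Set.indicator_of_mem (Set.mem_Ioi.2 hv), liBump, ofReal_mul, mul_right_comm, norm_mul,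
        Complex.norm_real, Real.norm_of_nonneg (cutoff_nonneg m v)]
      exact mul_le_of_le_one_right (norm_nonneg _) (cutoff_le_one m v)
  · rcases le_or_gt v 0 with hv | hv
    · simp [liBump, cutoff_eq_zero (Or.inl hv),
        Set.indicator_of_notMem (show v ∉ Set.Ioi (0 : ℝ) from not_lt.2 hv)]
    · rw [Set.indicator_of_mem (Set.mem_Ioi.2 hv)]
      simp only [liBump, ofReal_mul]
      have h1 : Tendsto (fun m => ((cutoff m v : ℝ) : ℂ)) atTop (𝓝 1) := by
        exact_mod_cast (continuous_ofReal.tendsto 1).comp (tendsto_cutoff hv)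
      simpa using ((tendsto_const_nhds (x := (liPoly n v : ℂ))).mul h1).mul_const
        (cexp (-a * v))

theorem integral_abs_deriv_cutoff_le (m : ℕ) :
    ∫ v in (0 : ℝ)..(m : ℝ) + 1, |deriv (cutoff m) v| ≤ 2 := by
  obtain ⟨A, hA⟩ : ∃ A : ℝ → ℝ, A = fun v => Real.smoothTransition ((m : ℝ) * v) := ⟨_, rfl⟩
  obtain ⟨B, hB⟩ : ∃ B : ℝ → ℝ, B = fun v => Real.smoothTransition ((m : ℝ) + 1 - v) := ⟨_, rfl⟩
  have hAc : ContDiff ℝ 1 A :=
    hA ▸ Real.smoothTransition.contDiff.comp (contDiff_const.mul contDiff_id)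
  have hBc : ContDiff ℝ 1 B :=
    hB ▸ Real.smoothTransition.contDiff.comp (contDiff_const.sub contDiff_id)
  have hAd := fun v => (hAc.differentiable one_ne_zero v).hasDerivAt
  have hBd := fun v => (hBc.differentiable one_ne_zero v).hasDerivAt
  have hA0 : ∀ v, 0 ≤ deriv A v := fun v => Monotone.deriv_nonneg (fun x y h => by
    rw [hA]
    exact Real.smoothTransition.monotone (mul_le_mul_of_nonneg_left h (Nat.cast_nonneg m)))
  have hB0 : ∀ v, deriv B v ≤ 0 := fun v => by
    have h : Monotone fun x => -B x := fun x y h => by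
      rw [hB]
      exact neg_le_neg (Real.smoothTransition.monotone (by linarith))
    have := h.deriv_nonneg (x := v)
    rw [deriv.fun_neg] at this
    linarith
  have hd : ∀ v, |deriv (cutoff m) v| ≤ deriv A v - deriv B v := fun v => by
    rw [show cutoff m = fun v => A v * B v by rw [hA, hB]; rfl,
      ((hAd v).fun_mul (hBd v)).deriv]
    refine (abs_add_le _ _).trans ?_
    rw [abs_mul, abs_mul, abs_of_nonneg (hA0 v), abs_of_nonpos (hB0 v), sub_eq_add_neg]
    have b1 : |B v| ≤ 1 ∧ |A v| ≤ 1 := by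
      rw [hA, hB]
      exact ⟨abs_le.2 ⟨by linarith [Real.smoothTransition.nonneg ((m : ℝ) + 1 - v)],
        Real.smoothTransition.le_one _⟩,
        abs_le.2 ⟨by linarith [Real.smoothTransition.nonneg ((m : ℝ) * v)],
        Real.smoothTransition.le_one _⟩⟩
    exact add_le_add (mul_le_of_le_one_right (hA0 v) b1.1)
      (mul_le_of_le_one_left (neg_nonneg.2 (hB0 v)) b1.2)
  have hi : ∀ {F : ℝ → ℝ}, ContDiff ℝ 1 F →
      IntervalIntegrable (deriv F) volume 0 ((m : ℝ) + 1) :=
    fun hF => (hF.continuous_deriv le_rfl).intervalIntegrable _ _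
  refine (intervalIntegral.integral_mono_on (by positivity) ((contDiff_cutoff m).continuous_deriv
    (n := 1) le_rfl).abs.continuousOn.intervalIntegrable ((hi hAc).sub (hi hBc))
    fun v _ => hd v).trans ?_
  rw [intervalIntegral.integral_sub (hi hAc) (hi hBc),
    intervalIntegral.integral_eq_sub_of_hasDerivAt (fun v _ => hAd v) (hi hAc),
    intervalIntegral.integral_eq_sub_of_hasDerivAt (fun v _ => hBd v) (hi hBc), hA, hB]
  simp only [mul_zero, Real.smoothTransition.zero, sub_self, sub_zero]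
  linarith [Real.smoothTransition.le_one ((m : ℝ) * ((m : ℝ) + 1)),
    Real.smoothTransition.le_one ((m : ℝ) + 1)]

theorem exists_pow_mul_exp_le (k : ℕ) {η : ℝ} (hη : 0 < η) :
    ∃ C, 0 ≤ C ∧ ∀ v : ℝ, 0 ≤ v → v ^ k * Real.exp (-η * v) ≤ C := by
  refine ⟨k ! / η ^ k, by positivity, fun v hv => ?_⟩
  have h := Real.pow_div_factorial_le_exp (η * v) (by positivity) k
  rw [neg_mul, Real.exp_neg, ← div_eq_mul_inv, div_le_div_iff₀ (Real.exp_pos _) (by positivity),
    ← mul_pow, mul_comm v η]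
  rw [div_le_iff₀ (by positivity)] at h
  linarith [h]

/-- **The uniform bound.** -/
theorem exists_liBumpTransform_le (n : ℕ) {η : ℝ} (hη : 0 < η) : ∃ C, 0 ≤ C ∧
    ∀ (m : ℕ) (a : ℂ), η ≤ a.re → ‖a * liBumpTransform n m a‖ ≤ C := by
  obtain ⟨S, hS0, hS⟩ : ∃ S, 0 ≤ S ∧ ∀ v : ℝ, 0 ≤ v → |liPoly n v| * Real.exp (-η * v) ≤ S := by
    choose C hC h using fun i : ℕ => exists_pow_mul_exp_le i hη
    refine ⟨∑ i ∈ range n, |((-1 : ℝ) ^ i * n.choose (i + 1) / i !)| * C i,
      sum_nonneg fun i _ => mul_nonneg (abs_nonneg _) (hC i), fun v hv => ?_⟩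
    refine (mul_le_mul_of_nonneg_right (abs_sum_le_sum_abs _ _) (Real.exp_pos _).le).trans ?_
    rw [sum_mul]
    refine sum_le_sum fun i _ => ?_
    rw [abs_mul, abs_of_nonneg (pow_nonneg hv i), mul_assoc]
    exact mul_le_mul_of_nonneg_left (h i v hv) (abs_nonneg _)
  obtain ⟨D, hD0, hD⟩ : ∃ D, 0 ≤ D ∧
      ∀ v : ℝ, 0 ≤ v → |deriv (liPoly n) v| * Real.exp (-η / 2 * v) ≤ D := by
    choose C hC h using fun i : ℕ => exists_pow_mul_exp_le i (half_pos hη)
    refine ⟨∑ i ∈ range n, |((-1 : ℝ) ^ i * n.choose (i + 1) / i !) * i| * C (i - 1),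
      sum_nonneg fun i _ => mul_nonneg (abs_nonneg _) (hC _), fun v hv => ?_⟩
    have e : deriv (liPoly n) v =
        ∑ i ∈ range n, (-1 : ℝ) ^ i * n.choose (i + 1) / i ! * ((i : ℝ) * v ^ (i - 1)) :=
      (HasDerivAt.fun_sum fun i _ => (hasDerivAt_pow i v).const_mul _).deriv
    rw [e]
    refine (mul_le_mul_of_nonneg_right (abs_sum_le_sum_abs _ _) (Real.exp_pos _).le).trans ?_
    rw [sum_mul]
    refine sum_le_sum fun i _ => ?_
    rw [← mul_assoc, abs_mul, abs_of_nonneg (pow_nonneg hv _), mul_assoc, neg_div]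
    exact mul_le_mul_of_nonneg_left (h _ v hv) (abs_nonneg _)
  refine ⟨D * (2 / η) + S * 2, by positivity, fun m a ha => ?_⟩
  obtain ⟨f, hf⟩ : ∃ f : ℝ → ℂ, f = fun v => (liBump n m v : ℂ) := ⟨_, rfl⟩
  have hfr : ContDiff ℝ 1 (liBump n m) := (contDiff_liPoly n).mul (contDiff_cutoff m)
  have hfc : ContDiff ℝ 1 f := hf ▸ ofRealCLM.contDiff.comp hfr
  have hfs : HasCompactSupport f := by
    refine HasCompactSupport.intro (isCompact_Icc (a := (0 : ℝ)) (b := (m : ℝ) + 1)) fun v hv => ?_
    rw [Set.mem_Icc, not_and_or, not_le, not_le] at hv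
    simp [hf, liBump, cutoff_eq_zero (hv.imp le_of_lt le_of_lt)]
  have hparts := mul_integral_exp hfc hfs (-a)
  rw [neg_mul, neg_inj] at hparts
  have e0 : a * liBumpTransform n m a = ∫ v : ℝ, deriv f v * cexp (-a * v) := by
    rw [liBumpTransform, ← hparts, hf]
  rw [e0]
  have hzero : ∀ v : ℝ, v ∉ Set.Ioc (0 : ℝ) ((m : ℝ) + 1) → deriv f v = 0 := fun v hv => by
    rw [Set.mem_Ioc, not_and_or, not_lt, not_le] at hv
    rcases hv with hv | hv
    · refine (uniqueDiffWithinAt_Iic v).eq_deriv _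
        ((hfc.differentiable one_ne_zero v).hasDerivAt.hasDerivWithinAt) ?_
      refine (hasDerivWithinAt_const v _ (0 : ℂ)).congr (fun w hw => ?_) ?_
      · simp [hf, liBump, cutoff_eq_zero (Or.inl (le_trans hw hv))]
      · simp [hf, liBump, cutoff_eq_zero (Or.inl hv)]
    · refine (uniqueDiffWithinAt_Ici v).eq_deriv _
        ((hfc.differentiable one_ne_zero v).hasDerivAt.hasDerivWithinAt) ?_
      refine (hasDerivWithinAt_const v _ (0 : ℂ)).congr (fun w hw => ?_) ?_
      · simp [hf, liBump, cutoff_eq_zero (Or.inr (le_trans hv.le hw))]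
      · simp [hf, liBump, cutoff_eq_zero (Or.inr hv.le)]
  rw [← setIntegral_eq_integral_of_forall_compl_eq_zero fun v hv => by rw [hzero v hv, zero_mul],
    ← intervalIntegral.integral_of_le (by positivity)]
  obtain ⟨W, hW⟩ : ∃ W : ℝ → ℝ,
      W = fun v => D * Real.exp (-η / 2 * v) + S * |deriv (cutoff m) v| := ⟨_, rfl⟩
  have hWi : IntervalIntegrable W volume 0 ((m : ℝ) + 1) := hW ▸
    ((Continuous.intervalIntegrable (by fun_prop) _ _).const_mul D).add
      (((contDiff_cutoff m).continuous_deriv (n := 1) le_rfl).abs.intervalIntegrable _ _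
        |>.const_mul S)
  refine (intervalIntegral.norm_integral_le_of_norm_le (by positivity) (g := W)
    (Eventually.of_forall fun v hv => ?_) hWi).trans ?_
  · have hv0 : 0 ≤ v := hv.1.le
    have ed : deriv f v = ((deriv (liBump n m) v : ℝ) : ℂ) :=
      hf ▸ ((hfr.differentiable one_ne_zero v).hasDerivAt.ofReal_comp).deriv
    have ee : deriv (liBump n m) v =
        deriv (liPoly n) v * cutoff m v + liPoly n v * deriv (cutoff m) v :=
      (((contDiff_liPoly n (k := 1)).differentiable one_ne_zero v).hasDerivAt.fun_mul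
        ((contDiff_cutoff m (k := 1)).differentiable one_ne_zero v).hasDerivAt).deriv
    rw [ed, ee, norm_mul, Complex.norm_real, Real.norm_eq_abs, Complex.norm_exp, hW]
    have hexp : (-a * (v : ℂ)).re ≤ -η * v := by
      simp only [mul_re, neg_re, ofReal_re, ofReal_im, mul_zero, sub_zero]
      nlinarith
    refine (mul_le_mul (abs_add_le _ _) (Real.exp_le_exp.2 hexp) (Real.exp_pos _).le
      (by positivity)).trans ?_
    rw [add_mul, abs_mul, abs_mul, abs_of_nonneg (cutoff_nonneg m v)]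
    refine add_le_add ?_ ?_
    · rw [show -η * v = -η / 2 * v + -η / 2 * v by ring, Real.exp_add]
      calc |deriv (liPoly n) v| * cutoff m v * (Real.exp (-η / 2 * v) * Real.exp (-η / 2 * v))
          ≤ |deriv (liPoly n) v| * 1 * (Real.exp (-η / 2 * v) * Real.exp (-η / 2 * v)) := by
            gcongr
            exact cutoff_le_one m v
        _ = |deriv (liPoly n) v| * Real.exp (-η / 2 * v) * Real.exp (-η / 2 * v) := by ring
        _ ≤ D * Real.exp (-η / 2 * v) := mul_le_mul_of_nonneg_right (hD v hv0) (Real.exp_pos _).le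
    · rw [mul_right_comm]
      exact mul_le_mul_of_nonneg_right (hS v hv0) (abs_nonneg _)
  · rw [hW, intervalIntegral.integral_add ((Continuous.intervalIntegrable (by fun_prop) _ _))
      ((((contDiff_cutoff m).continuous_deriv (n := 1) le_rfl).abs.intervalIntegrable _ _).const_mul
        S), intervalIntegral.integral_const_mul, intervalIntegral.integral_const_mul]
    refine add_le_add (mul_le_mul_of_nonneg_left ?_ hD0)
      (mul_le_mul_of_nonneg_left (integral_abs_deriv_cutoff_le m) hS0)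
    rw [intervalIntegral.integral_comp_mul_left (fun x => Real.exp x) (by linarith), integral_exp,
      mul_zero, Real.exp_zero, smul_eq_mul]
    have := Real.exp_pos (-η / 2 * ((m : ℝ) + 1))
    rw [show (-η / 2)⁻¹ = -(2 / η) by rw [inv_div]; ring]
    nlinarith [div_pos two_pos hη]

end FA.WeilExplicit

end
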