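import Fermat.Agent.WeilExplicit.Positivity
import Mathlib.Analysis.Calculus.ContDiff.Convolution

/-!
# The explicit formula at an autocorrelation

For real `g` the transform of `u ↦ ∫ g v g (v - u) dv` is `Φ s Φ (1 - s)`, so the explicit formula
writes Weil's quadratic form in terms of the primes and the digamma function.
-/

set_option autoImplicit false

noncomputable section

namespace FA.WeilExplicit

open Complex MeasureTheory Filter Topology ContinuousLinearMap
open scoped Real Convolution ArithmeticFunction.vonMangoldt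

/-- `∫ g v g (v - u) dv`. -/
def autocorr (g : ℝ → ℝ) (u : ℝ) : ℝ := ∫ v : ℝ, g v * g (v - u)

/-- The same as a complex convolution. -/
def autocorrC (g : ℝ → ℝ) : ℝ → ℂ :=
  (fun u => (g u : ℂ)) ⋆[mul ℝ ℂ, volume] fun u => (g (-u) : ℂ)

theorem autocorrC_apply (g : ℝ → ℝ) (u : ℝ) : autocorrC g u = (autocorr g u : ℂ) := by
  rw [autocorrC, convolution_def, autocorr, ← integral_complex_ofReal]
  refine integral_congr_ae (Eventually.of_forall fun v => ?_)
  simp [neg_sub]

theorem autocorr_neg (g : ℝ → ℝ) (u : ℝ) : autocorr g (-u) = autocorr g u := by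
  rw [autocorr, autocorr, ← integral_sub_right_eq_self (fun v : ℝ => g v * g (v - -u)) u]
  refine integral_congr_ae (Eventually.of_forall fun v => ?_)
  simp only [sub_neg_eq_add, sub_add_cancel]
  ring

theorem isTest_autocorrC {g : ℝ → ℝ} (hg : IsTest fun u => (g u : ℂ)) :
    IsTest (autocorrC g) :=
  ⟨hg.comp_neg.2.contDiff_convolution_right (n := 2) _ hg.continuous.locallyIntegrable
      hg.comp_neg.1,
    hg.2.convolution _ hg.comp_neg.2⟩

/-- **The transform of the autocorrelation.** -/
theorem testTransform_autocorrC {g : ℝ → ℝ} (hg : IsTest fun u => (g u : ℂ)) (s : ℂ) :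
    testTransform (autocorrC g) s =
      testTransform (fun u => (g u : ℂ)) s * testTransform (fun u => (g u : ℂ)) (1 - s) := by
  rw [← testTransform_comp_neg (fun u => (g u : ℂ)) s, testTransform, testTransform, testTransform]
  have h := integral_convolution (mul ℝ ℂ)
    (integrable_mul_exp hg.continuous hg.2 (s - 1 / 2))
    (integrable_mul_exp hg.comp_neg.continuous hg.comp_neg.2 (s - 1 / 2)) (μ := volume)
  rw [mul_apply'] at h
  refine Eq.trans ?_ h
  refine integral_congr_ae (Eventually.of_forall fun u => ?_)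
  simp only [autocorrC, convolution_def, mul_apply', ← integral_mul_const]
  refine integral_congr_ae (Eventually.of_forall fun v => ?_)
  have e : cexp ((s - 1 / 2) * (u : ℂ)) =
      cexp ((s - 1 / 2) * (v : ℂ)) * cexp ((s - 1 / 2) * ((u - v : ℝ) : ℂ)) := by
    rw [← Complex.exp_add]
    congr 1
    push_cast
    ring
  simp only [e]
  ring

/-- Weil's functional at the autocorrelation of `g`. -/
def weilForm (g : ℝ → ℝ) : ℝ :=
  2 * (∫ u : ℝ, g u * Real.exp (u / 2)) * (∫ u : ℝ, g u * Real.exp (-u / 2)) -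
    2 * ∑' n : ℕ, Λ n / √n * autocorr g (Real.log n) +
    (∫ t : ℝ, ‖∫ u : ℝ, (g u : ℂ) * cexp (((t * u : ℝ) : ℂ) * I)‖ ^ 2 * archWeight t) / (2 * π)

/-- **The explicit formula at an autocorrelation.** -/
theorem tsum_squareTerm {g : ℝ → ℝ} (hg : IsTest fun u => (g u : ℂ)) :
    ∑' ρ, squareTerm (fun u => (g u : ℂ)) ρ = (weilForm g : ℂ) := by
  obtain ⟨Φ, hΦ⟩ : ∃ Φ, Φ = testTransform (fun u => (g u : ℂ)) := ⟨_, rfl⟩
  have hsq : squareTerm (fun u => (g u : ℂ)) = zeroFn (autocorrC g) := funext fun ρ => by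
    rw [squareTerm, zeroFn, testTransform_autocorrC hg]
  have h0 : Φ 0 = ((∫ u : ℝ, g u * Real.exp (-u / 2) : ℝ) : ℂ) := by
    rw [hΦ, testTransform, ← integral_complex_ofReal]
    refine integral_congr_ae (Eventually.of_forall fun u => ?_)
    push_cast
    ring_nf
  have h1 : Φ 1 = ((∫ u : ℝ, g u * Real.exp (u / 2) : ℝ) : ℂ) := by
    rw [hΦ, testTransform, ← integral_complex_ofReal]
    refine integral_congr_ae (Eventually.of_forall fun u => ?_)
    push_cast
    ring_nf
  have hline : ∀ t : ℝ, testTransform (autocorrC g) (((1 / 2 : ℝ) : ℂ) + t * I) =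
      ((‖∫ u : ℝ, (g u : ℂ) * cexp (((t * u : ℝ) : ℂ) * I)‖ ^ 2 : ℝ) : ℂ) := fun t => by
    have e : (1 : ℂ) - (((1 / 2 : ℝ) : ℂ) + t * I) =
        (starRingEnd ℂ) (((1 / 2 : ℝ) : ℂ) + t * I) := by
      apply Complex.ext <;> simp
      norm_num
    have e2 : testTransform (fun u => (g u : ℂ)) (((1 / 2 : ℝ) : ℂ) + t * I) =
        ∫ u : ℝ, (g u : ℂ) * cexp (((t * u : ℝ) : ℂ) * I) := by
      refine integral_congr_ae (Eventually.of_forall fun u => ?_)
      push_cast
      ring_nf
    rw [testTransform_autocorrC hg, e, ← conj_testTransform, Complex.mul_conj, e2,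
      Complex.normSq_eq_norm_sq]
  rw [hsq, (hasSum_zeroFn (isTest_autocorrC hg)).tsum_eq, testTransform_autocorrC hg,
    testTransform_autocorrC hg, sub_zero, sub_self, ← hΦ, h0, h1]
  simp only [hline, autocorrC_apply, autocorr_neg, ← ofReal_add, ← ofReal_mul]
  rw [← Complex.ofReal_tsum, integral_complex_ofReal, weilForm]
  have e3 : ∀ n : ℕ, Λ n / √n * (autocorr g (Real.log n) + autocorr g (Real.log n)) =
      2 * (Λ n / √n * autocorr g (Real.log n)) := fun n => by ring
  simp only [e3, tsum_mul_left]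
  push_cast
  ring

end FA.WeilExplicit

end
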