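import Fermat.Agent.ExplicitFormula.Digamma
import Mathlib.Analysis.SpecialFunctions.Gamma.Digamma

/-!
# The archimedean kernel on the critical line

`(s - 1)⁻¹ + gammaReg s` and its value at `conj s` add up to `Re ψ (1/4 + it/2) - log π` at
`s = 1/2 + it`.
-/

set_option autoImplicit false

noncomputable section

namespace FA.WeilExplicit

open Complex FA.ExplicitFormula
open scoped Real ComplexConjugate

theorem conj_digamma {z : ℂ} (hz : 0 < z.re) :
    deriv Gamma (conj z) / Gamma (conj z) = conj (deriv Gamma z / Gamma z) := by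
  have h1 := hasSum_digamma (z := conj z) (by simpa using hz)
  have h2 := Complex.hasSum_conj'.2 (hasSum_digamma hz)
  simp only [map_sub, map_inv₀, map_add, map_natCast, map_one, Complex.conj_ofReal] at h2
  exact add_right_cancel (h1.unique h2)

theorem conj_gammaReg {s : ℂ} (hs : -2 < s.re) : gammaReg (conj s) = conj (gammaReg s) := by
  have h := conj_digamma (z := s / 2 + 1) (by simp; linarith)
  have e : conj (s / 2 + 1) = conj s / 2 + 1 := by simp [map_ofNat]
  rw [e] at h
  rw [gammaReg, gammaReg, h]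
  simp [map_ofNat]

/-- `(s - 1)⁻¹ + gammaReg s` at `s = 1/2 + it`. -/
def lineKernel (t : ℝ) : ℂ :=
  (((1 / 2 : ℝ) : ℂ) + t * I - 1)⁻¹ + gammaReg (((1 / 2 : ℝ) : ℂ) + t * I)

/-- Weil's archimedean weight `Re ψ (1/4 + it/2) - log π`. -/
def archWeight (t : ℝ) : ℝ := (digamma (1 / 4 + (t : ℂ) / 2 * I)).re - Real.log π

theorem lineKernel_add_neg (t : ℝ) : lineKernel t + lineKernel (-t) = (archWeight t : ℂ) := by
  obtain ⟨s, hs⟩ : ∃ s : ℂ, s = ((1 / 2 : ℝ) : ℂ) + t * I := ⟨_, rfl⟩
  have hc : ((1 / 2 : ℝ) : ℂ) + ((-t : ℝ) : ℂ) * I = conj s := by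
    rw [hs]
    apply Complex.ext <;> simp
  have e : lineKernel (-t) = conj (lineKernel t) := by
    rw [lineKernel, lineKernel, hc, conj_gammaReg (by simp [hs]; norm_num), ← hs]
    simp
  rw [e, Complex.add_conj]
  congr 1
  obtain ⟨z, hz⟩ : ∃ z : ℂ, z = 1 / 4 + (t : ℂ) / 2 * I := ⟨_, rfl⟩
  have hzre : z.re = 1 / 4 := by simp [hz]
  have hadd := Complex.digamma_apply_add_one z fun m hm => by
    have := congrArg Complex.re hm
    rw [hzre] at this
    simp at this
    linarith [(Nat.cast_nonneg m : (0 : ℝ) ≤ m)]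
  have hdig : deriv Gamma (s / 2 + 1) / Gamma (s / 2 + 1) = digamma z + z⁻¹ := by
    rw [← hadd, digamma_def, logDeriv_apply]
    have e1 : s / 2 + 1 = z + 1 := by rw [hs, hz]; push_cast; ring
    rw [e1]
  rw [lineKernel, ← hs, gammaReg, hdig, archWeight, ← hz]
  have e2 : (s - 1)⁻¹.re * 2 + z⁻¹.re = 0 := by
    have hq : (1 : ℝ) / 4 + t ^ 2 ≠ 0 := by positivity
    simp only [inv_re, Complex.normSq_apply, hs, hz, sub_re, add_re, ofReal_re, mul_re, I_re,
      I_im, mul_zero, mul_one, sub_self, add_zero, one_re, sub_im, add_im, ofReal_im, mul_im,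
      zero_add, one_im, sub_zero, div_ofNat_re, div_ofNat_im, one_div, inv_im,
      re_ofNat, im_ofNat, neg_zero, zero_div]
    field_simp
    ring
  simp only [add_re, div_ofNat_re, neg_re, ofReal_re]
  linarith

theorem continuous_lineKernel : Continuous lineKernel := by
  refine continuous_iff_continuousAt.2 fun t => ContinuousAt.add ?_ ?_
  · refine ContinuousAt.inv₀ (by fun_prop) fun h => ?_
    have := congrArg Complex.re h
    norm_num at this
  · exact ContinuousAt.comp' (g := gammaReg) (f := fun u : ℝ => ((1 / 2 : ℝ) : ℂ) + (u : ℂ) * I)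
      (differentiableAt_gammaReg (by simp; norm_num)).continuousAt (by fun_prop)

end FA.WeilExplicit

end
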