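import Fermat.Agent.ZeroOrdinates.Oscillatory
import Mathlib.Analysis.Fourier.Inversion
import Mathlib.Analysis.Calculus.ParametricIntegral

/-!
# The transform of a test function

`testTransform g s = ∫ g u exp ((s - 1/2) u) du` for `g` of class `C²` with compact support: it is
entire, is `O (1 / (1 + t²))` in the strip `-1 ≤ re s ≤ 2`, and is inverted on every vertical line
there.
-/

set_option autoImplicit false

noncomputable section

namespace FA.WeilExplicit

open Complex MeasureTheory Filter Topology FA.ZeroOrdinates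
open scoped Real FourierTransform

/-- A test function: `C²` with compact support. -/
def IsTest (g : ℝ → ℂ) : Prop := ContDiff ℝ 2 g ∧ HasCompactSupport g

/-- `∫ g u exp ((s - 1/2) u) du`. -/
def testTransform (g : ℝ → ℂ) (s : ℂ) : ℂ := ∫ u : ℝ, g u * cexp ((s - 1 / 2) * (u : ℂ))

variable {g : ℝ → ℂ}

theorem IsTest.continuous (h : IsTest g) : Continuous g := h.1.continuous

theorem IsTest.comp_neg (h : IsTest g) : IsTest fun u => g (-u) :=
  ⟨h.1.comp contDiff_neg, h.2.comp_homeomorph (Homeomorph.neg ℝ)⟩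

/-- `g ↦ g (-u)` reflects the transform in `re s = 1/2`. -/
theorem testTransform_comp_neg (g : ℝ → ℂ) (s : ℂ) :
    testTransform (fun u => g (-u)) s = testTransform g (1 - s) := by
  rw [testTransform, testTransform,
    ← integral_neg_eq_self (fun u : ℝ => g u * cexp ((1 - s - 1 / 2) * (u : ℂ)))]
  refine integral_congr_ae (Eventually.of_forall fun u => ?_)
  simp only
  congr 2
  push_cast
  ring

theorem integrable_mul_exp {f : ℝ → ℂ} (hf : Continuous f) (hs : HasCompactSupport f) (a : ℂ) :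
    Integrable fun u : ℝ => f u * cexp (a * (u : ℂ)) :=
  (hf.mul (by fun_prop)).integrable_of_hasCompactSupport hs.mul_right

theorem differentiable_testTransform (h : IsTest g) : Differentiable ℂ (testTransform g) := by
  intro s₀
  obtain ⟨R, hR⟩ := h.2.isCompact.isBounded.subset_closedBall 0
  obtain ⟨A, hA⟩ : ∃ A, A = ‖s₀ - 1 / 2‖ + 1 := ⟨_, rfl⟩
  have hd := hasDerivAt_integral_of_dominated_loc_of_deriv_le (μ := volume)
    (F := fun (s : ℂ) (u : ℝ) => g u * cexp ((s - 1 / 2) * (u : ℂ)))
    (F' := fun (s : ℂ) (u : ℝ) => g u * (cexp ((s - 1 / 2) * (u : ℂ)) * (u : ℂ)))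
    (x₀ := s₀) (bound := fun u => ‖g u‖ * (Real.exp (A * |u|) * |u|))
    (Metric.ball_mem_nhds s₀ one_pos)
    (Eventually.of_forall fun s => (integrable_mul_exp h.continuous h.2 _).aestronglyMeasurable)
    (integrable_mul_exp h.continuous h.2 _)
    (h.continuous.mul (by fun_prop)).aestronglyMeasurable
    (Eventually.of_forall fun u s hs => ?_)
    ((h.continuous.norm.mul (by fun_prop)).integrable_of_hasCompactSupport h.2.norm.mul_right)
    (Eventually.of_forall fun u s _ => ?_)
  · exact hd.2.differentiableAt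
  · rw [norm_mul, norm_mul, Complex.norm_real, Real.norm_eq_abs, Complex.norm_exp]
    have h1 : ‖s - 1 / 2‖ ≤ A := by
      rw [hA]
      rw [Metric.mem_ball, dist_eq_norm] at hs
      have := norm_add_le (s - s₀) (s₀ - 1 / 2)
      rw [sub_add_sub_cancel] at this
      linarith
    gcongr
    refine (re_le_norm _).trans ?_
    rw [norm_mul, Complex.norm_real, Real.norm_eq_abs]
    exact mul_le_mul_of_nonneg_right h1 (abs_nonneg u)
  · simpa using
      ((((hasDerivAt_id' s).sub_const (1 / 2 : ℂ)).mul_const (u : ℂ)).cexp).const_mul (g u)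

/-- One integration by parts. -/
theorem mul_integral_exp {f : ℝ → ℂ} (hf : ContDiff ℝ 1 f) (hs : HasCompactSupport f) (a : ℂ) :
    a * (∫ u : ℝ, f u * cexp (a * (u : ℂ))) = -∫ u : ℝ, deriv f u * cexp (a * (u : ℂ)) := by
  have hd : ∀ u : ℝ, HasDerivAt (fun v : ℝ => cexp (a * (v : ℂ))) (a * cexp (a * (u : ℂ))) u :=
    fun u => by
      have := (((hasDerivAt_id' (u : ℂ)).const_mul a).cexp).comp_ofReal
      simpa [mul_comm] using this
  rw [← integral_mul_deriv_eq_deriv_mul_of_integrable (u := f) (u' := deriv f)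
    (v := fun u : ℝ => cexp (a * (u : ℂ))) (v' := fun u : ℝ => a * cexp (a * (u : ℂ)))
    (fun u _ => (hf.differentiable one_ne_zero u).hasDerivAt) (fun u _ => hd u)
    ((hf.continuous.mul (by fun_prop)).integrable_of_hasCompactSupport hs.mul_right)
    (integrable_mul_exp (hf.continuous_deriv le_rfl) hs.deriv a)
    (integrable_mul_exp hf.continuous hs a), ← integral_const_mul]
  exact integral_congr_ae (Eventually.of_forall fun u => by ring)

theorem exists_norm_integral_le {f : ℝ → ℂ} (hf : Continuous f) (hs : HasCompactSupport f) :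
    ∃ C, 0 ≤ C ∧ ∀ a : ℂ, |a.re| ≤ 3 / 2 → ‖∫ u : ℝ, f u * cexp (a * (u : ℂ))‖ ≤ C := by
  refine ⟨∫ u : ℝ, ‖f u‖ * Real.exp (3 / 2 * |u|), integral_nonneg fun u => by positivity,
    fun a ha => norm_integral_le_of_norm_le
      ((hf.norm.mul (by fun_prop)).integrable_of_hasCompactSupport hs.norm.mul_right)
      (Eventually.of_forall fun u => ?_)⟩
  rw [norm_mul, Complex.norm_exp]
  gcongr
  simp only [mul_re, ofReal_re, ofReal_im, mul_zero, sub_zero]
  refine (le_abs_self _).trans ?_
  rw [abs_mul]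
  exact mul_le_mul_of_nonneg_right ha (abs_nonneg u)

/-- **The decay.** -/
theorem exists_testTransform_le (h : IsTest g) : ∃ C, 0 ≤ C ∧ ∀ s : ℂ, -1 ≤ s.re → s.re ≤ 2 →
    ‖testTransform g s‖ ≤ C / (1 + s.im ^ 2) := by
  have hd : ContDiff ℝ 1 (deriv g) := contDiff_succ_iff_deriv.1 (show ContDiff ℝ (1 + 1) g from
    by simpa [one_add_one_eq_two] using h.1) |>.2.2
  obtain ⟨C₀, hC₀, h0⟩ := exists_norm_integral_le h.continuous h.2
  obtain ⟨C₂, hC₂, h2⟩ := exists_norm_integral_le (hd.continuous_deriv le_rfl) h.2.deriv.deriv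
  refine ⟨C₀ + C₂, by positivity, fun s hs hs' => ?_⟩
  have ha : |(s - 1 / 2).re| ≤ 3 / 2 := by
    simp only [sub_re, one_div, inv_re, re_ofNat, normSq_ofNat]
    rw [abs_le]
    constructor <;> norm_num <;> linarith
  have e : (s - 1 / 2) * ((s - 1 / 2) * testTransform g s) =
      ∫ u : ℝ, deriv (deriv g) u * cexp ((s - 1 / 2) * (u : ℂ)) := by
    rw [testTransform, mul_integral_exp (h.1.of_le (by norm_num)) h.2, mul_neg,
      mul_integral_exp hd h.2.deriv, neg_neg]
  have h3 := h2 _ ha
  rw [← e, norm_mul, norm_mul] at h3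
  have h4 : s.im ^ 2 ≤ ‖s - 1 / 2‖ * ‖s - 1 / 2‖ := by
    have h5 := abs_im_le_norm (s - 1 / 2)
    have h6 : (s - 1 / 2).im = s.im := by simp
    rw [h6] at h5
    calc s.im ^ 2 = |s.im| * |s.im| := by rw [← sq_abs]; ring
      _ ≤ _ := mul_le_mul h5 h5 (abs_nonneg _) (norm_nonneg _)
  have h5 : ‖testTransform g s‖ ≤ C₀ := h0 _ ha
  rw [le_div_iff₀ (by positivity)]
  nlinarith [mul_le_mul_of_nonneg_right h4 (norm_nonneg (testTransform g s))]

theorem continuous_testTransform_line (h : IsTest g) (σ : ℝ) :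
    Continuous fun t : ℝ => testTransform g ((σ : ℂ) + t * I) :=
  (differentiable_testTransform h).continuous.comp (by fun_prop)

theorem integrable_testTransform_line (h : IsTest g) {σ : ℝ} (h1 : -1 ≤ σ) (h2 : σ ≤ 2) :
    Integrable fun t : ℝ => testTransform g ((σ : ℂ) + t * I) := by
  obtain ⟨C, hC, hle⟩ := exists_testTransform_le h
  refine (integrable_inv_one_add_sq.const_mul C).mono'
    (continuous_testTransform_line h σ).aestronglyMeasurable (Eventually.of_forall fun t => ?_)
  refine (hle _ (by simpa using h1) (by simpa using h2)).trans (le_of_eq ?_)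
  simp [div_eq_mul_inv]

/-- **Inversion on the line `re s = σ`.** -/
theorem integral_testTransform_osc (h : IsTest g) {σ : ℝ} (h1 : -1 ≤ σ) (h2 : σ ≤ 2) (v : ℝ) :
    ∫ t : ℝ, testTransform g ((σ : ℂ) + t * I) * osc (-v) t =
      2 * π * (g v * ((Real.exp ((σ - 1 / 2) * v) : ℝ) : ℂ)) := by
  obtain ⟨f, hf⟩ : ∃ f : ℝ → ℂ,
      f = fun u : ℝ => g u * cexp ((((σ - 1 / 2 : ℝ) : ℂ)) * (u : ℂ)) := ⟨_, rfl⟩
  have hfc : Continuous f := hf ▸ h.continuous.mul (by fun_prop)
  have hfi : Integrable f := hf ▸ integrable_mul_exp h.continuous h.2 _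
  have hF : ∀ w : ℝ, 𝓕 f w =
      testTransform g ((σ : ℂ) + ((-(2 * π * w) : ℝ) : ℂ) * I) := fun w => by
    rw [Real.fourier_real_eq_integral_exp_smul, testTransform, hf]
    refine integral_congr_ae (Eventually.of_forall fun u => ?_)
    simp only [smul_eq_mul]
    rw [mul_left_comm, ← Complex.exp_add]
    congr 2
    push_cast
    ring
  have hFi : Integrable (𝓕 f) := by
    rw [funext hF]
    have h3 := (integrable_testTransform_line h h1 h2).comp_mul_left' (R := -(2 * π))
      (neg_ne_zero.2 (by positivity))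
    refine h3.congr (Eventually.of_forall fun w => ?_)
    simp only [neg_mul]
  have key := congrFun (hfc.fourierInv_fourier_eq hfi hFi) v
  rw [Real.fourierInv_eq'] at key
  simp only [hF, smul_eq_mul] at key
  have e : ∀ w : ℝ, cexp (((2 * π * inner ℝ w v : ℝ) : ℂ) * I) *
      testTransform g ((σ : ℂ) + ((-(2 * π * w) : ℝ) : ℂ) * I) =
      (fun t : ℝ => testTransform g ((σ : ℂ) + t * I) * osc (-v) t) (-(2 * π) * w) := fun w => by
    simp only [osc, neg_mul]
    rw [mul_comm]
    congr 2
    simp only [RCLike.inner_apply, conj_trivial]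
    push_cast
    ring
  simp only [e] at key
  rw [MeasureTheory.Measure.integral_comp_mul_left
    (fun t : ℝ => testTransform g ((σ : ℂ) + t * I) * osc (-v) t), abs_inv, abs_neg,
    abs_of_pos (show 0 < 2 * π by positivity), Complex.real_smul] at key
  have e2 : f v = g v * ((Real.exp ((σ - 1 / 2) * v) : ℝ) : ℂ) := by
    rw [hf]
    push_cast
    ring_nf
  obtain ⟨J, hJ⟩ : ∃ J, J = ∫ t : ℝ, testTransform g ((σ : ℂ) + t * I) * osc (-v) t := ⟨_, rfl⟩
  rw [← hJ] at key ⊢
  rw [← e2, ← key]
  push_cast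
  field_simp

end FA.WeilExplicit

end
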