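import Fermat.Agent.ExplicitFormula.Contour
import Fermat.Agent.WeilExplicit.Transform
import Fermat.Agent.WeilExplicit.Gamma
import Fermat.Agent.ZeroOrdinates.Lines

/-!
# The explicit formula of Riemann and Weil

The residues of `Φ s · ξ'/ξ s` on `[-1/2, 3/2] × [-T, T]`; the functional equation folds the left
side on to the right one, where the primes are integrated term by term and the archimedean part
is moved to `re s = 1/2`.
-/

set_option autoImplicit false

noncomputable section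

namespace FA.WeilExplicit

open Complex MeasureTheory Filter Topology Set
open FA.RiemannMangoldt FA.ExplicitFormula FA.ZeroFree FA.ZeroOrdinates
open scoped Real ArithmeticFunction.vonMangoldt

variable {g : ℝ → ℂ}

/-- The summand at `ρ`, with multiplicity; `0` off the zeros. -/
def zeroFn (g : ℝ → ℂ) (ρ : ℂ) : ℂ := (zeroWeight ρ : ℂ) * testTransform g ρ

theorem zeroFn_eq_zero (g : ℝ → ℂ) {ρ : ℂ} (h : xiFn ρ ≠ 0) : zeroFn g ρ = 0 := by
  simp [zeroFn, zeroWeight_eq_zero h]

theorem summable_norm_zeroFn (h : IsTest g) : Summable fun ρ => ‖zeroFn g ρ‖ := by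
  obtain ⟨C, hC, hle⟩ := exists_testTransform_le h
  obtain ⟨S, hS, hsum⟩ := exists_sq_sum
  refine summable_of_sum_le (c := 2 * C * S) (fun ρ => norm_nonneg _) fun F => ?_
  refine (Finset.sum_le_sum (g := fun ρ => 2 * C * (zeroWeight ρ * (1 / (1 + |ρ.im|) ^ 2)))
    fun ρ _ => ?_).trans ?_
  · by_cases hρ : xiFn ρ = 0
    · obtain ⟨h0, h1⟩ := xiFn_zero_strip hρ
      rw [zeroFn, norm_mul, Complex.norm_natCast, mul_left_comm (2 * C)]
      refine mul_le_mul_of_nonneg_left ((hle ρ (by linarith) (by linarith)).trans ?_)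
        (Nat.cast_nonneg _)
      rw [mul_one_div, div_le_div_iff₀ (by positivity) (by positivity)]
      nlinarith [sq_nonneg (1 - |ρ.im|), sq_abs ρ.im]
    · simp [zeroFn_eq_zero g hρ, zeroWeight_eq_zero hρ]
  · rw [← Finset.mul_sum]
    exact mul_le_mul_of_nonneg_left (hsum F) (by positivity)

/-- The partial sums over `|γ| ≤ T` converge to the sum over all zeros. -/
theorem tendsto_zeroFn (h : IsTest g) {T : ℕ → ℝ} (hT : Tendsto T atTop atTop) :
    Tendsto (fun m => ∑ ρ ∈ zerosUpTo (T m), zeroFn g ρ) atTop (𝓝 (∑' ρ, zeroFn g ρ)) := by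
  classical
  have hsupp : Function.support (zeroFn g) ⊆ {ρ | xiFn ρ = 0} := fun ρ hρ => by
    by_contra hne
    exact hρ (zeroFn_eq_zero g hne)
  have hs : HasSum (zeroFn g ∘ ((↑) : {ρ : ℂ | xiFn ρ = 0} → ℂ)) (∑' ρ, zeroFn g ρ) :=
    (hasSum_subtype_iff_of_support_subset hsupp).2 (summable_norm_zeroFn h).of_norm.hasSum
  have hatTop : Tendsto (fun m => (zerosUpTo (T m)).subtype fun ρ => ρ ∈ {ρ : ℂ | xiFn ρ = 0})
      atTop atTop := by
    refine tendsto_atTop.2 fun S => ?_
    filter_upwards [hT.eventually (eventually_ge_atTop (∑ ρ ∈ S, |(ρ : ℂ).im|))] with m hm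
    intro ρ hρ
    rw [Finset.mem_subtype, mem_zerosUpTo]
    exact ⟨ρ.2, le_trans (Finset.single_le_sum (f := fun ρ : {ρ : ℂ | xiFn ρ = 0} => |(ρ : ℂ).im|)
      (fun i _ => abs_nonneg _) hρ) hm⟩
  refine (hs.comp hatTop).congr fun m => ?_
  exact Finset.sum_subtype_of_mem (fun ρ => zeroFn g ρ) fun ρ hρ => (mem_zerosUpTo.1 hρ).1

/-- **The residues.** -/
theorem boxInt_xiLogDeriv (h : IsTest g) {T : ℝ} (hT : 0 < T)
    (hord : ∀ ρ, xiFn ρ = 0 → |ρ.im| ≠ T) :
    boxInt (fun s => testTransform g s * xiLogDeriv s) (-1 / 2) (3 / 2) T =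
      2 * π * I * ∑ ρ ∈ zerosUpTo T, zeroFn g ρ := by
  classical
  obtain ⟨Z, f, hf, he, hZ, hne, hcount⟩ := exists_xi_factor (R := T + 5) (by linarith)
  have hball : ∀ s : ℂ, s.re ∈ Icc (-1 / 2 : ℝ) (3 / 2) → s.im ∈ Icc (-T) T →
      s ∈ Metric.closedBall (2 : ℂ) (T + 5) := fun s h1 h2 => by
    rw [Metric.mem_closedBall, dist_eq_norm]
    refine (norm_le_abs_re_add_abs_im _).trans ?_
    simp only [sub_re, sub_im, re_ofNat, im_ofNat, sub_zero]
    rw [abs_of_neg (by linarith [h1.2])]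
    linarith [h1.1, abs_le.2 h2]
  have hΦ := differentiable_testTransform h
  obtain ⟨G, hG⟩ : ∃ G : ℂ → ℂ, G = fun s => testTransform g s * (deriv f s / f s) := ⟨_, rfl⟩
  have hGd : ∀ s : ℂ, s.re ∈ Icc (-1 / 2 : ℝ) (3 / 2) → s.im ∈ Icc (-T) T →
      DifferentiableAt ℂ G s := fun s h1 h2 => by
    rw [hG]
    exact (hΦ s).mul ((hf.analyticAt s).deriv.differentiableAt.div (hf s) (hne s (hball s h1 h2)))
  have hedge : ∀ s ∈ boxEdges (-1 / 2) (3 / 2) T,
      s.re ∈ Icc (-1 / 2 : ℝ) (3 / 2) ∧ s.im ∈ Icc (-T) T := fun s hs => by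
    obtain ⟨h1, h2, -⟩ := hs
    rw [uIcc_of_le (by norm_num)] at h1
    rw [uIcc_of_le (by linarith)] at h2
    exact ⟨h1, h2⟩
  have hin : ∀ ρ ∈ Z, (-1 / 2 : ℝ) < ρ.re ∧ ρ.re < 3 / 2 := fun ρ hρ => by
    obtain ⟨a, b⟩ := xiFn_zero_strip (hZ ρ hρ)
    exact ⟨by linarith, by linarith⟩
  obtain ⟨P, hP⟩ : ∃ P : ℂ → ℂ → ℂ, P = fun ρ s => testTransform g s / (s - ρ) := ⟨_, rfl⟩
  have hzne : ∀ s ∈ boxEdges (-1 / 2) (3 / 2) T, ∀ ρ ∈ Z, s ≠ ρ := fun s hs ρ hρ =>
    interior_not_edge (hin ρ hρ).1 (hin ρ hρ).2 (hord ρ (hZ ρ hρ)) hT.le hs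
  obtain ⟨hZc, hZsum⟩ := boxInt_multiset_sum (f := P) (a := -1 / 2) (b := 3 / 2) (T := T) Z
    fun ρ hρ s hs => hP ▸ (hΦ s).continuousAt.div (continuousAt_id.sub continuousAt_const)
      (sub_ne_zero.2 (hzne s hs ρ hρ))
  rw [boxInt_congr (G := fun s => G s + (Z.map fun ρ => P ρ s).sum) fun s hs => ?_,
    boxInt_add (G := fun s => (Z.map fun ρ => P ρ s).sum)
      (fun s hs => (hGd s (hedge s hs).1 (hedge s hs).2).continuousAt) hZc,
    boxInt_eq_zero (by norm_num) hT.le hGd, zero_add, hZsum]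
  · have hmap : (Z.map fun ρ => boxInt (P ρ) (-1 / 2) (3 / 2) T) =
        Z.map fun ρ => 2 * π * I * (if |ρ.im| < T then testTransform g ρ else 0) := by
      refine Multiset.map_congr rfl fun ρ hρ => ?_
      rw [hP, boxInt_residue isOpen_univ hΦ.differentiableOn (fun s _ _ => Set.mem_univ s) hT.le
        (hin ρ hρ).1 (hin ρ hρ).2 (hord ρ (hZ ρ hρ))]
      split_ifs <;> simp
    rw [hmap, Multiset.sum_map_mul_left]
    congr 1
    rw [Finset.sum_multiset_map_count]
    simp only [smul_ite, smul_zero]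
    rw [← Finset.sum_filter]
    have hstrip : ∀ ρ : ℂ, xiFn ρ = 0 → |ρ.im| ≤ T →
        ρ ∈ Metric.closedBall (2 : ℂ) (T + 5) := fun ρ hρ hi => by
      obtain ⟨a, b⟩ := xiFn_zero_strip hρ
      exact hball ρ ⟨by linarith, by linarith⟩ (abs_le.1 hi)
    refine Finset.sum_congr ?_ fun ρ hρ => ?_
    · ext ρ
      rw [Finset.mem_filter, Multiset.mem_toFinset, mem_zerosUpTo]
      refine ⟨fun hρ => ⟨hZ ρ hρ.1, hρ.2.le⟩, fun hρ => ⟨?_, lt_of_le_of_ne hρ.2 (hord ρ hρ.1)⟩⟩
      rw [← Multiset.one_le_count_iff_mem, ← hcount ρ (hstrip ρ hρ.1 hρ.2)]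
      exact one_le_zeroWeight hρ.1
    · rw [mem_zerosUpTo] at hρ
      rw [← hcount ρ (hstrip ρ hρ.1 hρ.2), nsmul_eq_mul, zeroFn, zeroWeight]
  · obtain ⟨h1, h2⟩ := hedge s hs
    have hm : (Z.map fun ρ => P ρ s) = Z.map fun ρ => testTransform g s * (s - ρ)⁻¹ :=
      Multiset.map_congr rfl fun ρ _ => by rw [hP]; exact div_eq_mul_inv _ _
    dsimp only
    rw [hm, Multiset.sum_map_mul_left,
      xiLogDeriv_factor hf he (hzne s hs) (hne s (hball s h1 h2)), hG]
    ring

/-- `ell y / (1 + y²)` is integrable. -/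
theorem exists_ell_sq_le : ∃ K, 0 ≤ K ∧ ∀ y : ℝ, ell y ^ 2 / (1 + y ^ 2) ≤ K * decay y ∧
    ell y / (1 + y ^ 2) ≤ K * decay y := by
  obtain ⟨K, hK1, hK⟩ := ell_pow_le
  refine ⟨K, by linarith, fun y => ?_⟩
  have hl := four_le_ell y
  have hd : decay y = (1 + y ^ 2) ^ (1 / 4 : ℝ) / (1 + y ^ 2) := by
    rw [decay, eq_div_iff (by positivity), ← Real.rpow_add_one (by positivity)]
    norm_num
  rw [hd, mul_div_assoc']
  exact ⟨div_le_div_of_nonneg_right
      ((pow_le_pow_right₀ (by linarith) (by norm_num)).trans (hK y)) (by positivity),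
    div_le_div_of_nonneg_right
      ((le_self_pow₀ (by linarith) (by norm_num)).trans (hK y)) (by positivity)⟩

theorem tendsto_decay {T : ℕ → ℝ} (hT : Tendsto T atTop atTop) :
    Tendsto (fun m => decay (T m)) atTop (𝓝 0) := by
  have h0 : Tendsto decay atTop (𝓝 0) :=
    tendsto_of_tendsto_of_tendsto_of_le_of_le' tendsto_const_nhds
      (tendsto_rpow_neg_atTop (show (0 : ℝ) < 3 / 2 by norm_num))
      (Eventually.of_forall fun y => (decay_pos y).le)
      ((eventually_gt_atTop 0).mono fun y hy => decay_le hy)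
  exact h0.comp hT

/-- The horizontal sides of the first rectangle. -/
theorem exists_heights (h : IsTest g) : ∃ T : ℕ → ℝ, Tendsto T atTop atTop ∧ (∀ m, 3 ≤ T m) ∧
    (∀ m ρ, xiFn ρ = 0 → |ρ.im| ≠ T m) ∧
    ∀ e : ℝ, |e| = 1 → Tendsto (fun m => ∫ u in (-1 / 2 : ℝ)..3 / 2,
      testTransform g ((u : ℂ) + ((e * T m : ℝ) : ℂ) * I) *
        xiLogDeriv ((u : ℂ) + ((e * T m : ℝ) : ℂ) * I)) atTop (𝓝 0) := by
  obtain ⟨C, hC, hb⟩ := exists_horizontal
  obtain ⟨A, hA, hle⟩ := exists_testTransform_le h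
  obtain ⟨K, hK0, hK⟩ := exists_ell_sq_le
  obtain ⟨c, hc, hheight⟩ := exists_good_height
  choose T hT1 hT2 hgap using fun m : ℕ => hheight (m + 3)
  obtain ⟨d, hd⟩ : ∃ d, d = min c 1 := ⟨_, rfl⟩
  have hd0 : 0 < d := hd ▸ lt_min hc one_pos
  have hlow : ∀ m : ℕ, (m : ℝ) + 3 ≤ T m := fun m => le_trans (by push_cast; rfl) (hT1 m)
  have hT3 : ∀ m, 3 ≤ T m := fun m =>
    le_trans (by linarith [(Nat.cast_nonneg m : (0 : ℝ) ≤ m)]) (hlow m)
  have htop : Tendsto T atTop atTop := tendsto_atTop_mono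
    (fun m => le_trans (le_add_of_nonneg_right (by norm_num)) (hlow m))
    tendsto_natCast_atTop_atTop
  refine ⟨T, htop, hT3, fun m ρ hρ he => ?_, fun e he => ?_⟩
  · have := hgap m ρ hρ
    rw [he, sub_self, abs_zero] at this
    linarith [div_pos hc (ell_pos ((m + 3 : ℕ) : ℝ))]
  refine squeeze_zero_norm (fun m => ?_)
    (by simpa using (tendsto_decay htop).const_mul (2 * (A * ((C + 4) / d) * K)))
  have habs : |e * T m| = T m := by rw [abs_mul, he, one_mul, abs_of_pos (by linarith [hT3 m])]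
  refine (intervalIntegral.norm_integral_le_of_norm_le_const
    (C := A * ((C + 4) / d) * K * decay (T m)) fun u hu => ?_).trans
      (le_of_eq (by rw [show |(3 / 2 : ℝ) - -1 / 2| = 2 by norm_num]; ring))
  rw [uIoc_of_le (by norm_num)] at hu
  obtain ⟨t, ht⟩ : ∃ t, t = e * T m := ⟨_, rfl⟩
  rw [← ht] at habs ⊢
  obtain ⟨s, hs⟩ : ∃ s : ℂ, s = (u : ℂ) + (t : ℂ) * I := ⟨_, rfl⟩
  rw [← hs]
  have hre : s.re = u := by simp [hs]
  have him : s.im = t := by simp [hs]
  have hδ : d / ell ((m + 3 : ℕ) : ℝ) ≤ 1 := by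
    rw [div_le_one (ell_pos _)]
    linarith [four_le_ell ((m + 3 : ℕ) : ℝ), hd ▸ min_le_right c 1]
  have ht3 : 3 ≤ |t| := habs ▸ hT3 m
  have hn := hb u t (d / ell ((m + 3 : ℕ) : ℝ)) hu.1.le hu.2 ht3 (div_pos hd0 (ell_pos _)) hδ
    fun ρ hρ => by
      rw [habs]
      refine le_trans ?_ (hgap m ρ hρ)
      exact div_le_div_of_nonneg_right (hd ▸ min_le_left c 1) (ell_pos _).le
  rw [← hs, div_div_eq_mul_div] at hn
  have hxi : xiLogDeriv s = (s - 1)⁻¹ + gammaReg s - negLogDeriv s := by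
    rw [negLogDeriv]
    ring
  have hi := norm_inv_sub_one_le (s := s) one_pos (Or.inl (by rw [him]; linarith))
  have hg := norm_gammaReg_le (s := s) (by rw [hre]; linarith [hu.1]) (by rw [hre]; linarith [hu.2])
  rw [him] at hg
  change ‖gammaReg s‖ ≤ 8 + 2 * ell t at hg
  have he1 : ell t = ell (T m) := by
    rw [ell, ell, habs, abs_of_pos (by linarith [hT3 m] : 0 < T m)]
  rw [he1] at hn hg
  have hl := four_le_ell (T m)
  have hl2 : ell ((m + 3 : ℕ) : ℝ) ≤ ell (T m) := ell_mono (by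
    rw [Nat.abs_cast, abs_of_pos (by linarith [hT3 m] : 0 < T m)]; exact hT1 m)
  have hbig : ‖xiLogDeriv s‖ ≤ (C + 4) / d * ell (T m) ^ 2 := by
    rw [hxi]
    have hd1 : d ≤ 1 := hd ▸ min_le_right c 1
    have h4 : C * ell (T m) * ell ((m + 3 : ℕ) : ℝ) / d ≤ C / d * ell (T m) ^ 2 := by
      rw [div_mul_eq_mul_div, sq, ← mul_assoc]
      refine div_le_div_of_nonneg_right ?_ hd0.le
      exact mul_le_mul_of_nonneg_left hl2 (by positivity)
    have h5 : 4 * ell (T m) ^ 2 ≤ 4 / d * ell (T m) ^ 2 :=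
      mul_le_mul_of_nonneg_right ((le_div_iff₀ hd0).2 (by linarith)) (sq_nonneg _)
    refine (norm_sub_le _ _).trans ((add_le_add (norm_add_le _ _) hn).trans ?_)
    rw [add_div, add_mul]
    nlinarith
  have hsq : t ^ 2 = T m ^ 2 := by rw [← sq_abs, habs]
  have hΦ := hle s (by rw [hre]; linarith [hu.1]) (by rw [hre]; linarith [hu.2])
  rw [him, hsq] at hΦ
  rw [norm_mul]
  refine (mul_le_mul hΦ hbig (norm_nonneg _) (by positivity)).trans (le_of_eq_of_le
    (b := A * ((C + 4) / d) * (ell (T m) ^ 2 / (1 + T m ^ 2))) (by ring) ?_)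
  rw [mul_assoc (A * ((C + 4) / d)) K]
  exact mul_le_mul_of_nonneg_left (hK _).1 (by positivity)

theorem IsTest.symm (h : IsTest g) : IsTest fun u => g u + g (-u) :=
  ⟨h.1.add h.comp_neg.1, h.2.add h.comp_neg.2⟩

theorem testTransform_symm (h : IsTest g) (s : ℂ) :
    testTransform (fun u => g u + g (-u)) s = testTransform g s + testTransform g (1 - s) := by
  rw [← testTransform_comp_neg, testTransform, testTransform, testTransform, ← integral_add
    (integrable_mul_exp h.continuous h.2 _)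
    (integrable_mul_exp h.comp_neg.continuous h.comp_neg.2 _)]
  exact integral_congr_ae (Eventually.of_forall fun u => by ring)

/-- A continuous multiple of the transform by `O (ell)` is integrable on a line. -/
theorem integrable_line_mul (h : IsTest g) {σ : ℝ} (h1 : -1 ≤ σ) (h2 : σ ≤ 2) {k : ℝ → ℂ}
    (hk : Continuous k) {A : ℝ} (hA : 0 ≤ A) (hle : ∀ y, ‖k y‖ ≤ A * ell y) :
    Integrable fun y : ℝ => testTransform g ((σ : ℂ) + y * I) * k y := by
  obtain ⟨C, hC, hΦ⟩ := exists_testTransform_le h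
  obtain ⟨K, hK0, hK⟩ := exists_ell_sq_le
  refine (integrable_decay.const_mul (C * A * K)).mono'
    ((continuous_testTransform_line h σ).mul hk).aestronglyMeasurable
    (Eventually.of_forall fun y => ?_)
  have h3 := hΦ ((σ : ℂ) + y * I) (by simpa using h1) (by simpa using h2)
  rw [show ((σ : ℂ) + y * I).im = y by simp] at h3
  rw [norm_mul]
  refine (mul_le_mul h3 (hle y) (norm_nonneg _) (by positivity)).trans
    (le_of_eq_of_le (b := C * A * (ell y / (1 + y ^ 2))) (by ring) ?_)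
  rw [mul_assoc (C * A) K]
  exact mul_le_mul_of_nonneg_left (hK y).2 (by positivity)

/-- `(s - 1)⁻¹ + gammaReg s` on `re s = 3/2`. -/
def archRight (y : ℝ) : ℂ :=
  (((3 / 2 : ℝ) : ℂ) + y * I - 1)⁻¹ + gammaReg (((3 / 2 : ℝ) : ℂ) + y * I)

theorem continuous_archRight : Continuous archRight := by
  refine continuous_iff_continuousAt.2 fun t => ContinuousAt.add ?_ ?_
  · refine ContinuousAt.inv₀ (by fun_prop) fun h => ?_
    have := congrArg Complex.re h
    norm_num at this
  · exact ContinuousAt.comp' (g := gammaReg) (f := fun u : ℝ => ((3 / 2 : ℝ) : ℂ) + (u : ℂ) * I)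
      (differentiableAt_gammaReg (by simp; norm_num)).continuousAt (by fun_prop)

theorem norm_kernel_le {σ : ℝ} (hσ : σ = 1 / 2 ∨ σ = 3 / 2) (y : ℝ) :
    ‖((σ : ℂ) + y * I - 1)⁻¹ + gammaReg ((σ : ℂ) + y * I)‖ ≤ 5 * ell y := by
  have hl := four_le_ell y
  have hre : ((σ : ℂ) + y * I).re = σ := by simp
  have hr : -1 / 2 ≤ σ ∧ σ ≤ 2 ∧ (1 / 2 : ℝ) ≤ |σ - 1| := by
    rcases hσ with h | h <;> rw [h] <;> norm_num
  have hi := norm_inv_sub_one_le (s := (σ : ℂ) + y * I) (a := 1 / 2) (by norm_num)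
    (Or.inr (by rw [hre]; exact hr.2.2))
  have hg := norm_gammaReg_le (s := (σ : ℂ) + y * I) (by rw [hre]; exact hr.1)
    (by rw [hre]; exact hr.2.1)
  rw [show ((σ : ℂ) + y * I).im = y by simp] at hg
  change ‖gammaReg ((σ : ℂ) + y * I)‖ ≤ 8 + 2 * ell y at hg
  refine (norm_add_le _ _).trans ((add_le_add hi hg).trans ?_)
  norm_num
  linarith

theorem continuous_negLogDeriv_right :
    Continuous fun y : ℝ => negLogDeriv (((3 / 2 : ℝ) : ℂ) + y * I) := by
  refine continuous_iff_continuousAt.2 fun y => ContinuousAt.comp' (g := negLogDeriv)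
    (f := fun u : ℝ => ((3 / 2 : ℝ) : ℂ) + (u : ℂ) * I) ?_ (by fun_prop)
  refine (differentiableAt_negLogDeriv (by simp; norm_num) (fun h => ?_) fun h => ?_).continuousAt
  · have := congrArg Complex.re h
    norm_num at this
  · have := (xiFn_zero_strip h).2
    norm_num at this

theorem norm_negLogDeriv_right_le (y : ℝ) :
    ‖negLogDeriv (((3 / 2 : ℝ) : ℂ) + y * I)‖ ≤
      ∑' n, ‖LSeries.term (fun n => ((Λ n : ℝ) : ℂ)) ((3 / 2 : ℝ) : ℂ) n‖ := by
  rw [negLogDeriv_right]
  have e : ∀ n, ‖LSeries.term (fun n => ((Λ n : ℝ) : ℂ)) ((3 / 2 : ℝ) : ℂ) n *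
      osc (-Real.log n) y‖ = ‖LSeries.term (fun n => ((Λ n : ℝ) : ℂ)) ((3 / 2 : ℝ) : ℂ) n‖ :=
    fun n => by rw [norm_mul, norm_osc, mul_one]
  have := norm_tsum_le_tsum_norm (summable_term_vonMangoldt.congr fun n => (e n).symm)
  simpa only [e] using this

theorem term_mul_natCast (n : ℕ) :
    LSeries.term (fun n => ((Λ n : ℝ) : ℂ)) ((3 / 2 : ℝ) : ℂ) n * (n : ℂ) =
      ((Λ n / √n : ℝ) : ℂ) := by
  rcases eq_or_ne n 0 with rfl | hn
  · simp
  have hn' : (0 : ℝ) < n := by exact_mod_cast Nat.pos_of_ne_zero hn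
  have e : (n : ℂ) ^ ((3 / 2 : ℝ) : ℂ) = (((n : ℝ) * √n : ℝ) : ℂ) := by
    rw [Real.sqrt_eq_rpow, ← Real.rpow_one_add' hn'.le (by norm_num), ofReal_cpow hn'.le,
      ofReal_natCast]
    norm_num
  rw [LSeries.term_of_ne_zero hn, e]
  have h0 : (n : ℂ) ≠ 0 := Nat.cast_ne_zero.2 hn
  push_cast
  field_simp

/-- The primes. -/
theorem integral_line_negLogDeriv {f : ℝ → ℂ} (h : IsTest f) :
    ∫ y : ℝ, testTransform f (((3 / 2 : ℝ) : ℂ) + y * I) *
        negLogDeriv (((3 / 2 : ℝ) : ℂ) + y * I) =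
      2 * π * ∑' n : ℕ, ((Λ n / √n : ℝ) : ℂ) * f (Real.log n) := by
  obtain ⟨c, hc⟩ : ∃ c : ℕ → ℂ,
      c = LSeries.term (fun n => ((Λ n : ℝ) : ℂ)) ((3 / 2 : ℝ) : ℂ) := ⟨_, rfl⟩
  have hcn : Summable fun n => ‖c n‖ := hc ▸ summable_term_vonMangoldt
  have hint := integrable_testTransform_line h (σ := 3 / 2) (by norm_num) (by norm_num)
  have hF : ∀ n, Integrable fun y : ℝ =>
      c n * (testTransform f (((3 / 2 : ℝ) : ℂ) + y * I) * osc (-Real.log n) y) := fun n =>
    (hint.mul_bdd (continuous_osc _).aestronglyMeasurable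
      (Eventually.of_forall fun y => (norm_osc _ y).le)).const_mul _
  have hsum := MeasureTheory.hasSum_integral_of_summable_integral_norm hF (by
    simp only [norm_mul, norm_osc, mul_one, integral_const_mul]
    exact hcn.mul_right _)
  have e : ∀ y : ℝ, testTransform f (((3 / 2 : ℝ) : ℂ) + y * I) *
      negLogDeriv (((3 / 2 : ℝ) : ℂ) + y * I) =
      ∑' n, c n * (testTransform f (((3 / 2 : ℝ) : ℂ) + y * I) * osc (-Real.log n) y) := fun y => by
    rw [negLogDeriv_right, ← tsum_mul_left, hc]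
    exact tsum_congr fun n => by ring
  rw [integral_congr_ae (Eventually.of_forall e), ← hsum.tsum_eq, ← tsum_mul_left]
  refine tsum_congr fun n => ?_
  rw [integral_const_mul, integral_testTransform_osc h (by norm_num) (by norm_num),
    ← term_mul_natCast, ← hc, show (3 / 2 : ℝ) - 1 / 2 = 1 by norm_num, one_mul]
  rcases eq_or_ne n 0 with rfl | hn
  · simp [hc]
  rw [Real.exp_log (by exact_mod_cast Nat.pos_of_ne_zero hn), ofReal_natCast]
  ring

/-- The archimedean part moves to the critical line. -/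
theorem integral_archRight {f : ℝ → ℂ} (h : IsTest f) :
    ∫ y : ℝ, testTransform f (((3 / 2 : ℝ) : ℂ) + y * I) * archRight y =
      2 * π * testTransform f 1 +
        ∫ y : ℝ, testTransform f (((1 / 2 : ℝ) : ℂ) + y * I) * lineKernel y := by
  obtain ⟨H, hH⟩ : ∃ H : ℂ → ℂ,
      H = fun s => testTransform f s / (s - 1) + testTransform f s * gammaReg s := ⟨_, rfl⟩
  have hΦ := differentiable_testTransform h
  have hgam : ∀ s : ℂ, s.re ∈ Icc (1 / 2 : ℝ) (3 / 2) →
      DifferentiableAt ℂ (fun s => testTransform f s * gammaReg s) s := fun s hs =>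
    (hΦ s).mul (differentiableAt_gammaReg (by linarith [hs.1]))
  obtain ⟨T, hTd⟩ : ∃ T : ℕ → ℝ, T = fun m : ℕ => (m : ℝ) + 1 := ⟨_, rfl⟩
  have hTop : Tendsto T atTop atTop :=
    hTd ▸ tendsto_atTop_add_const_right _ _ tendsto_natCast_atTop_atTop
  have hT0 : ∀ m, 0 < T m := fun m => by rw [hTd]; positivity
  have hbox : ∀ m, boxInt H (1 / 2) (3 / 2) (T m) = 2 * π * I * testTransform f 1 := fun m => by
    have hedge : ∀ s ∈ boxEdges (1 / 2) (3 / 2) (T m), s.re ∈ Icc (1 / 2 : ℝ) (3 / 2) :=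
      fun s hs => by
        have h1 := hs.1
        rwa [uIcc_of_le (by norm_num)] at h1
    have h1T : |(1 : ℂ).im| ≠ T m := by simpa using (hT0 m).ne
    rw [hH, boxInt_add (F := fun s => testTransform f s / (s - 1))
      (G := fun s => testTransform f s * gammaReg s)
      (fun s hs => (hΦ s).continuousAt.div (continuousAt_id.sub continuousAt_const)
        (sub_ne_zero.2 (interior_not_edge (by norm_num) (by norm_num) h1T (hT0 m).le hs)))
      (fun s hs => (hgam s (hedge s hs)).continuousAt),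
      boxInt_residue isOpen_univ hΦ.differentiableOn (fun s _ _ => Set.mem_univ s) (hT0 m).le
        (by norm_num) (by norm_num) h1T, if_pos (by simpa using hT0 m),
      boxInt_eq_zero (by norm_num) (hT0 m).le fun s hs _ => hgam s hs, add_zero]
  obtain ⟨A, hA, hle⟩ := exists_testTransform_le h
  obtain ⟨K, hK0, hK⟩ := exists_ell_sq_le
  have hside : ∀ e : ℝ, |e| = 1 → Tendsto (fun m => ∫ u in (1 / 2 : ℝ)..3 / 2,
      H ((u : ℂ) + ((e * T m : ℝ) : ℂ) * I)) atTop (𝓝 0) := fun e he => by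
    refine squeeze_zero_norm (fun m => ?_)
      (by simpa using (tendsto_decay hTop).const_mul (A * 5 * K))
    have habs : |e * T m| = T m := by rw [abs_mul, he, one_mul, abs_of_pos (hT0 m)]
    refine (intervalIntegral.norm_integral_le_of_norm_le_const (C := A * 5 * K * decay (T m))
      fun u hu => ?_).trans (le_of_eq (by norm_num))
    rw [uIoc_of_le (by norm_num)] at hu
    obtain ⟨s, hs⟩ : ∃ s : ℂ, s = (u : ℂ) + ((e * T m : ℝ) : ℂ) * I := ⟨_, rfl⟩
    have hre : s.re = u := by simp [hs]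
    have him : |s.im| = T m := by rw [← habs]; simp [hs]
    rw [← hs, hH]
    simp only
    rw [div_eq_mul_inv, ← mul_add, norm_mul]
    have hm1 : 1 ≤ T m := by rw [hTd]; simp
    have hl := four_le_ell (T m)
    have hi := norm_inv_sub_one_le (s := s) one_pos (Or.inl (by rw [him]; exact hm1))
    have hg := norm_gammaReg_le (s := s) (by rw [hre]; linarith [hu.1])
      (by rw [hre]; linarith [hu.2])
    change ‖gammaReg s‖ ≤ 8 + 2 * ell s.im at hg
    rw [show ell s.im = ell (T m) by rw [ell, ell, him, abs_of_pos (hT0 m)]] at hg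
    have h3 := hle s (by rw [hre]; linarith [hu.1]) (by rw [hre]; linarith [hu.2])
    rw [← sq_abs, him] at h3
    have h4 : ‖(s - 1)⁻¹ + gammaReg s‖ ≤ 5 * ell (T m) := by
      refine (norm_add_le _ _).trans ((add_le_add hi hg).trans ?_)
      norm_num
      linarith
    refine (mul_le_mul h3 h4 (norm_nonneg _) (by positivity)).trans
      (le_of_eq_of_le (b := A * 5 * (ell (T m) / (1 + T m ^ 2))) (by ring) ?_)
    rw [mul_assoc (A * 5) K]
    exact mul_le_mul_of_nonneg_left (hK _).2 (by positivity)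
  have hiR : Integrable fun y : ℝ => testTransform f (((3 / 2 : ℝ) : ℂ) + y * I) * archRight y :=
    integrable_line_mul h (by norm_num) (by norm_num) continuous_archRight (by norm_num)
      (norm_kernel_le (Or.inr rfl))
  have hiL : Integrable fun y : ℝ =>
      testTransform f (((1 / 2 : ℝ) : ℂ) + y * I) * lineKernel y :=
    integrable_line_mul h (by norm_num) (by norm_num) continuous_lineKernel (by norm_num)
      (norm_kernel_le (Or.inl rfl))
  have eR : ∀ y : ℝ, H (((3 / 2 : ℝ) : ℂ) + y * I) =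
      testTransform f (((3 / 2 : ℝ) : ℂ) + y * I) * archRight y := fun y => by
    rw [hH, archRight]
    ring
  have eL : ∀ y : ℝ, H (((1 / 2 : ℝ) : ℂ) + y * I) =
      testTransform f (((1 / 2 : ℝ) : ℂ) + y * I) * lineKernel y := fun y => by
    rw [hH, lineKernel]
    ring
  obtain ⟨R, hR⟩ : ∃ R, R = ∫ y : ℝ,
      testTransform f (((3 / 2 : ℝ) : ℂ) + y * I) * archRight y := ⟨_, rfl⟩
  obtain ⟨L, hL⟩ : ∃ L, L = ∫ y : ℝ,
      testTransform f (((1 / 2 : ℝ) : ℂ) + y * I) * lineKernel y := ⟨_, rfl⟩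
  have hlim : Tendsto (fun m => boxInt H (1 / 2) (3 / 2) (T m)) atTop
      (𝓝 (0 - 0 + I * R - I * L)) := by
    refine ((Tendsto.sub ?_ ?_).add (Tendsto.const_mul I ?_)).sub (Tendsto.const_mul I ?_)
    · simpa using hside (-1) (by norm_num)
    · simpa using hside 1 (by norm_num)
    · rw [hR]
      simp only [eR]
      exact intervalIntegral_tendsto_integral hiR (tendsto_neg_atTop_atBot.comp hTop) hTop
    · rw [hL]
      simp only [eL]
      exact intervalIntegral_tendsto_integral hiL (tendsto_neg_atTop_atBot.comp hTop) hTop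
  simp only [hbox] at hlim
  have heq := tendsto_nhds_unique hlim tendsto_const_nhds
  rw [← hR, ← hL]
  refine mul_left_cancel₀ I_ne_zero ?_
  linear_combination heq

/-- **The explicit formula of Riemann and Weil.** -/
theorem hasSum_zeroFn (h : IsTest g) :
    HasSum (zeroFn g) (testTransform g 0 + testTransform g 1 -
      (∑' n : ℕ, ((Λ n / √n : ℝ) : ℂ) * (g (Real.log n) + g (-Real.log n))) +
      (∫ t : ℝ, testTransform g (((1 / 2 : ℝ) : ℂ) + t * I) * (archWeight t : ℂ)) /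
        (2 * π)) := by
  obtain ⟨f, hf⟩ : ∃ f : ℝ → ℂ, f = fun u => g u + g (-u) := ⟨_, rfl⟩
  have hft : IsTest f := hf ▸ h.symm
  have hfs : ∀ s : ℂ, testTransform f s = testTransform g s + testTransform g (1 - s) :=
    fun s => hf ▸ testTransform_symm h s
  obtain ⟨T, hTop, hT3, hord, hside⟩ := exists_heights h
  have hiA : Integrable fun y : ℝ => testTransform f (((3 / 2 : ℝ) : ℂ) + y * I) * archRight y :=
    integrable_line_mul hft (by norm_num) (by norm_num) continuous_archRight (by norm_num)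
      (norm_kernel_le (Or.inr rfl))
  have hiN : Integrable fun y : ℝ => testTransform f (((3 / 2 : ℝ) : ℂ) + y * I) *
      negLogDeriv (((3 / 2 : ℝ) : ℂ) + y * I) :=
    (integrable_testTransform_line hft (σ := 3 / 2) (by norm_num) (by norm_num)).mul_bdd
      continuous_negLogDeriv_right.aestronglyMeasurable
      (Eventually.of_forall norm_negLogDeriv_right_le)
  have exi : ∀ y : ℝ, testTransform f (((3 / 2 : ℝ) : ℂ) + y * I) *
      xiLogDeriv (((3 / 2 : ℝ) : ℂ) + y * I) =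
      testTransform f (((3 / 2 : ℝ) : ℂ) + y * I) * archRight y -
        testTransform f (((3 / 2 : ℝ) : ℂ) + y * I) *
          negLogDeriv (((3 / 2 : ℝ) : ℂ) + y * I) := fun y => by
    rw [archRight, negLogDeriv]
    ring
  obtain ⟨J, hJ⟩ : ∃ J, J = ∫ y : ℝ, testTransform f (((3 / 2 : ℝ) : ℂ) + y * I) *
      xiLogDeriv (((3 / 2 : ℝ) : ℂ) + y * I) := ⟨_, rfl⟩
  have hfold : ∀ m, boxInt (fun s => testTransform g s * xiLogDeriv s) (-1 / 2) (3 / 2) (T m) =
      (∫ u in (-1 / 2 : ℝ)..3 / 2, testTransform g ((u : ℂ) + ((-T m : ℝ) : ℂ) * I) *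
          xiLogDeriv ((u : ℂ) + ((-T m : ℝ) : ℂ) * I)) -
        (∫ u in (-1 / 2 : ℝ)..3 / 2, testTransform g ((u : ℂ) + (T m : ℂ) * I) *
          xiLogDeriv ((u : ℂ) + (T m : ℂ) * I)) +
        I * ∫ y in (-T m)..T m, testTransform f (((3 / 2 : ℝ) : ℂ) + y * I) *
          xiLogDeriv (((3 / 2 : ℝ) : ℂ) + y * I) := fun m => by
    have hcont : ∀ φ : ℂ → ℂ, Differentiable ℂ φ → Continuous fun y : ℝ =>
        φ (((3 / 2 : ℝ) : ℂ) + y * I) * xiLogDeriv (((3 / 2 : ℝ) : ℂ) + y * I) := fun φ hφ =>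
      (hφ.continuous.comp (by fun_prop)).mul (continuous_iff_continuousAt.2 fun y =>
        ContinuousAt.comp' (g := xiLogDeriv) (f := fun u : ℝ => ((3 / 2 : ℝ) : ℂ) + (u : ℂ) * I)
          (continuousAt_xiLogDeriv fun h0 => by
            have := (xiFn_zero_strip h0).2
            norm_num at this) (by fun_prop))
    have el : (∫ y in (-T m)..T m, testTransform g (((-1 / 2 : ℝ) : ℂ) + (y : ℂ) * I) *
        xiLogDeriv (((-1 / 2 : ℝ) : ℂ) + (y : ℂ) * I)) =
        -∫ y in (-T m)..T m, testTransform g (1 - (((3 / 2 : ℝ) : ℂ) + (y : ℂ) * I)) *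
          xiLogDeriv (((3 / 2 : ℝ) : ℂ) + (y : ℂ) * I) := by
      rw [← intervalIntegral.integral_neg]
      have hcomp := intervalIntegral.integral_comp_neg (a := -T m) (b := T m)
        (fun y : ℝ => testTransform g (((-1 / 2 : ℝ) : ℂ) + (y : ℂ) * I) *
          xiLogDeriv (((-1 / 2 : ℝ) : ℂ) + (y : ℂ) * I))
      rw [neg_neg] at hcomp
      rw [← hcomp]
      refine intervalIntegral.integral_congr fun y _ => ?_
      have e1 : ((-1 / 2 : ℝ) : ℂ) + ((-y : ℝ) : ℂ) * I =
          1 - (((3 / 2 : ℝ) : ℂ) + (y : ℂ) * I) := by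
        push_cast
        ring
      simp only [e1, xiLogDeriv_one_sub, mul_neg]
    simp only [boxInt, el, hfs, add_mul]
    rw [intervalIntegral.integral_add
      ((hcont _ (differentiable_testTransform h)).intervalIntegrable _ _)
      ((hcont (fun s => testTransform g (1 - s)) ((differentiable_testTransform h).comp
        (differentiable_id.const_sub 1))).intervalIntegrable _ _)]
    ring
  have hiJ : Integrable fun y : ℝ => testTransform f (((3 / 2 : ℝ) : ℂ) + y * I) *
      xiLogDeriv (((3 / 2 : ℝ) : ℂ) + y * I) :=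
    (hiA.sub hiN).congr (Eventually.of_forall fun y => (exi y).symm)
  have hlim : Tendsto (fun m => boxInt (fun s => testTransform g s * xiLogDeriv s) (-1 / 2) (3 / 2)
      (T m)) atTop (𝓝 (0 - 0 + I * J)) := by
    simp only [hfold]
    refine (Tendsto.sub ?_ ?_).add (Tendsto.const_mul I ?_)
    · simpa using hside (-1) (by norm_num)
    · simpa using hside 1 (by norm_num)
    · rw [hJ]
      exact intervalIntegral_tendsto_integral hiJ (tendsto_neg_atTop_atBot.comp hTop) hTop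
  simp only [fun m => boxInt_xiLogDeriv h (lt_of_lt_of_le (by norm_num) (hT3 m)) (hord m)] at hlim
  have heq := tendsto_nhds_unique hlim ((tendsto_zeroFn h hTop).const_mul (2 * (π : ℂ) * I))
  have hline : ∫ y : ℝ, testTransform f (((1 / 2 : ℝ) : ℂ) + y * I) * lineKernel y =
      ∫ t : ℝ, testTransform g (((1 / 2 : ℝ) : ℂ) + t * I) * (archWeight t : ℂ) := by
    have hk : Continuous fun t : ℝ => lineKernel (-t) :=
      continuous_lineKernel.comp continuous_neg
    have hle : ∀ t : ℝ, ‖lineKernel (-t)‖ ≤ 5 * ell t := fun t => by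
      rw [show ell t = ell (-t) by rw [ell, ell, abs_neg]]
      exact norm_kernel_le (Or.inl rfl) (-t)
    have i1 := integrable_line_mul h (σ := 1 / 2) (by norm_num) (by norm_num)
      continuous_lineKernel (A := 5) (by norm_num) (norm_kernel_le (Or.inl rfl))
    have i2 := integrable_line_mul h (σ := 1 / 2) (by norm_num) (by norm_num) hk (A := 5)
      (by norm_num) hle
    have e2 : ∀ y : ℝ, testTransform g (1 - (((1 / 2 : ℝ) : ℂ) + y * I)) * lineKernel y =
        (fun t : ℝ => testTransform g (((1 / 2 : ℝ) : ℂ) + t * I) * lineKernel (-t)) (-y) :=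
      fun y => by
        simp only [neg_neg]
        congr 2
        push_cast
        ring
    simp only [hfs, add_mul, e2]
    rw [integral_add i1 i2.comp_neg, integral_neg_eq_self
      (fun t : ℝ => testTransform g (((1 / 2 : ℝ) : ℂ) + t * I) * lineKernel (-t)),
      ← integral_add i1 i2]
    exact integral_congr_ae (Eventually.of_forall fun t => by
      simp only
      rw [← mul_add, lineKernel_add_neg])
  obtain ⟨N, hN⟩ : ∃ N, N = ∑' n : ℕ, ((Λ n / √n : ℝ) : ℂ) *
      (g (Real.log n) + g (-Real.log n)) := ⟨_, rfl⟩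
  obtain ⟨W, hW⟩ : ∃ W, W = ∫ t : ℝ,
      testTransform g (((1 / 2 : ℝ) : ℂ) + t * I) * (archWeight t : ℂ) := ⟨_, rfl⟩
  have hJv : J = 2 * π * (testTransform g 1 + testTransform g 0) + W - 2 * π * N := by
    rw [hJ, integral_congr_ae (Eventually.of_forall exi), integral_sub hiA hiN,
      integral_archRight hft, integral_line_negLogDeriv hft, hline, hfs, sub_self, hW, hN, hf]
  have key : ∑' ρ, zeroFn g ρ = testTransform g 0 + testTransform g 1 - N + W / (2 * π) := by
    have hπ : (2 * π : ℂ) ≠ 0 := mul_ne_zero two_ne_zero (ofReal_ne_zero.2 Real.pi_ne_zero)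
    have h2 : J = 2 * π * ∑' ρ, zeroFn g ρ := by
      refine mul_left_cancel₀ I_ne_zero ?_
      linear_combination heq
    rw [hJv] at h2
    refine mul_left_cancel₀ hπ ?_
    rw [← h2]
    field_simp
    ring
  rw [← hN, ← hW, ← key]
  exact (summable_norm_zeroFn h).of_norm.hasSum

end FA.WeilExplicit

end
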