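import Fermat.Agent.WeilExplicit.Main
import Fermat.Agent.WeilExplicit.Laplace
import Fermat.Agent.Root.SummaryLiCriterion
import Mathlib.Analysis.Normed.Group.Tannery

/-!
# Weil's positivity criterion

The Riemann hypothesis holds iff `∑ Φ ρ Φ (1 - ρ)` is nonnegative for all real test functions:
the smooth cut-offs of Li's polynomials make Li's coefficients a limit of such sums.
-/

set_option autoImplicit false

noncomputable section

namespace FA.WeilExplicit

open Complex MeasureTheory Filter Topology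
open FA.RiemannMangoldt FA.ExplicitFormula
open scoped ComplexConjugate

/-- `m Φ ρ Φ (1 - ρ)`. -/
def squareTerm (g : ℝ → ℂ) (ρ : ℂ) : ℂ :=
  (zeroWeight ρ : ℂ) * (testTransform g ρ * testTransform g (1 - ρ))

theorem summable_squareTerm {g : ℝ → ℂ} (h : IsTest g) : Summable (squareTerm g) := by
  obtain ⟨C, hC, hle⟩ := exists_testTransform_le h
  refine Summable.of_norm_bounded ((summable_norm_zeroFn h).mul_left C) fun ρ => ?_
  by_cases hρ : xiFn ρ = 0
  · obtain ⟨h0, h1⟩ := xiFn_zero_strip hρ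
    rw [squareTerm, zeroFn, ← mul_assoc, norm_mul, mul_comm C]
    refine mul_le_mul_of_nonneg_left ((hle _ (by simp; linarith) (by simp; linarith)).trans ?_)
      (norm_nonneg _)
    exact div_le_self hC (le_add_of_nonneg_right (sq_nonneg _))
  · simp [squareTerm, zeroFn, zeroWeight_eq_zero hρ]

theorem conj_testTransform (g : ℝ → ℝ) (s : ℂ) :
    conj (testTransform (fun u => (g u : ℂ)) s) =
      testTransform (fun u => (g u : ℂ)) (conj s) := by
  rw [testTransform, testTransform, ← integral_conj]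
  refine integral_congr_ae (Eventually.of_forall fun u => ?_)
  simp [← Complex.exp_conj, map_ofNat]

theorem re_half_of_riemannHypothesis (h : RiemannHypothesis) {ρ : ℂ} (hρ : xiFn ρ = 0) :
    ρ.re = 1 / 2 := by
  obtain ⟨h0, h1⟩ := xiFn_zero_strip hρ
  have hne : ρ ≠ 1 := fun h' => by rw [h'] at h1; simp at h1
  refine h ρ ((xiFn_eq_zero_iff h0 hne).1 hρ) ?_ hne
  rintro ⟨n, rfl⟩
  simp at h0
  linarith [(Nat.cast_nonneg n : (0 : ℝ) ≤ n)]

/-- **RH gives the positivity.** -/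
theorem re_tsum_squareTerm_nonneg (hRH : RiemannHypothesis) {g : ℝ → ℝ}
    (hg : IsTest fun u => (g u : ℂ)) :
    0 ≤ (∑' ρ, squareTerm (fun u => (g u : ℂ)) ρ).re := by
  rw [Complex.re_tsum (summable_squareTerm hg)]
  refine tsum_nonneg fun ρ => ?_
  by_cases hρ : xiFn ρ = 0
  · have e : (1 : ℂ) - ρ = conj ρ := by
      apply Complex.ext <;> simp [re_half_of_riemannHypothesis hRH hρ]
      norm_num
    rw [squareTerm, e, ← conj_testTransform, Complex.mul_conj, ← ofReal_natCast, ← ofReal_mul,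
      ofReal_re]
    exact mul_nonneg (Nat.cast_nonneg _) (normSq_nonneg _)
  · simp [squareTerm, zeroWeight_eq_zero hρ]

/-- The test function of Li's `n`-th coefficient, cut off at `m` and damped by `η`. -/
def liTest (n m : ℕ) (η : ℝ) (v : ℝ) : ℝ := liBump n m v * Real.exp (-(1 / 2 + η) * v)

theorem isTest_liTest (n m : ℕ) (η : ℝ) : IsTest fun v => (liTest n m η v : ℂ) := by
  refine ⟨ofRealCLM.contDiff.comp (((contDiff_liPoly n).mul (contDiff_cutoff m)).mul
    (Real.contDiff_exp.comp (contDiff_const.mul contDiff_id))),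
    HasCompactSupport.intro (isCompact_Icc (a := (0 : ℝ)) (b := (m : ℝ) + 1)) fun v hv => ?_⟩
  rw [Set.mem_Icc, not_and_or, not_le, not_le] at hv
  simp [liTest, liBump, cutoff_eq_zero (hv.imp le_of_lt le_of_lt)]

theorem testTransform_liTest (n m : ℕ) (η : ℝ) (s : ℂ) :
    testTransform (fun v => (liTest n m η v : ℂ)) s = liBumpTransform n m (1 - s + η) := by
  rw [testTransform, liBumpTransform]
  refine integral_congr_ae (Eventually.of_forall fun v => ?_)
  simp only [liTest, ofReal_mul, ofReal_exp, mul_assoc, ← Complex.exp_add]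
  congr 2
  push_cast
  ring

theorem summable_weight_sq :
    Summable fun ρ : ℂ => (zeroWeight ρ : ℝ) * (1 / (1 + |ρ.im|) ^ 2) := by
  obtain ⟨A, -, hsq⟩ := exists_sq_sum
  exact summable_of_sum_le (fun ρ => by positivity) hsq

theorem exists_inv_norm_le : ∃ c, 0 < c ∧ ∀ ρ a : ℂ, xiFn ρ = 0 → |a.im| = |ρ.im| →
    ‖a⁻¹‖ ≤ c * (1 / (1 + |ρ.im|)) := by
  obtain ⟨c, hc, h⟩ := exists_inv_im_le
  refine ⟨c, hc, fun ρ a hρ ha => le_trans ?_ (h ρ hρ)⟩
  rw [norm_inv, one_div, ← ha]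
  exact inv_anti₀ (ha ▸ abs_pos.2 (im_ne_zero_of_zero hρ)) (abs_im_le_norm a)

/-- The value in the limit `m → ∞`. -/
def liProd (n : ℕ) (η : ℝ) (ρ : ℂ) : ℂ :=
  (zeroWeight ρ : ℂ) * ((1 - (1 - (1 - ρ + (η : ℂ))⁻¹) ^ n) * (1 - (1 - (ρ + (η : ℂ))⁻¹) ^ n))

theorem tendsto_tsum_liTest (n : ℕ) {η : ℝ} (hη : 0 < η) :
    Tendsto (fun m => ∑' ρ, squareTerm (fun v => (liTest n m η v : ℂ)) ρ) atTop
      (𝓝 (∑' ρ, liProd n η ρ)) := by
  obtain ⟨C, hC, hb⟩ := exists_liBumpTransform_le n hη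
  obtain ⟨c, hc, hinv⟩ := exists_inv_norm_le
  refine tendsto_tsum_of_dominated_convergence (summable_weight_sq.mul_left ((C * c) ^ 2))
    (fun ρ => ?_) (Eventually.of_forall fun m ρ => ?_)
  · simp only [squareTerm, liProd, testTransform_liTest, sub_sub_cancel]
    by_cases hρ : xiFn ρ = 0
    · obtain ⟨h0, h1⟩ := xiFn_zero_strip hρ
      exact ((tendsto_liBumpTransform n (by simp; linarith)).mul
        (tendsto_liBumpTransform n (by simp; linarith))).const_mul _
    · simp [zeroWeight_eq_zero hρ]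
  · simp only [squareTerm, testTransform_liTest, sub_sub_cancel]
    by_cases hρ : xiFn ρ = 0
    · obtain ⟨h0, h1⟩ := xiFn_zero_strip hρ
      have key : ∀ a : ℂ, η ≤ a.re → |a.im| = |ρ.im| →
          ‖liBumpTransform n m a‖ ≤ C * c * (1 / (1 + |ρ.im|)) := fun a ha hi => by
        have ha0 : a ≠ 0 := fun h => by rw [h] at ha; simp at ha; linarith
        calc ‖liBumpTransform n m a‖ = ‖a⁻¹‖ * ‖a * liBumpTransform n m a‖ := by
              rw [← norm_mul, inv_mul_cancel_left₀ ha0]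
          _ ≤ c * (1 / (1 + |ρ.im|)) * C :=
              mul_le_mul (hinv ρ a hρ hi) (hb m a ha) (norm_nonneg _) (by positivity)
          _ = _ := by ring
      rw [norm_mul, norm_mul, Complex.norm_natCast]
      refine (mul_le_mul_of_nonneg_left (mul_le_mul (key _ (by simp; linarith) (by simp))
        (key _ (by simp; linarith) (by simp)) (norm_nonneg _) (by positivity))
        (Nat.cast_nonneg _)).trans (le_of_eq ?_)
      field_simp
    · simp [zeroWeight_eq_zero hρ]

theorem tendsto_tsum_liProd (n : ℕ) :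
    Tendsto (fun k : ℕ => ∑' ρ, liProd n (1 / ((k : ℝ) + 1)) ρ) atTop
      (𝓝 (∑' ρ, 2 * FA.LiCriterion.liTerm n ρ)) := by
  obtain ⟨c, hc, hinv⟩ := exists_inv_norm_le
  refine tendsto_tsum_of_dominated_convergence
    (summable_weight_sq.mul_left (((n : ℝ) * (1 + c) ^ n * c) ^ 2))
    (fun ρ => ?_) (Eventually.of_forall fun k ρ => ?_)
  · by_cases hρ : xiFn ρ = 0
    · obtain ⟨h0, h1⟩ := FA.LiCriterion.zero_ne_zero_one hρ
      have h1' : (1 : ℂ) - ρ ≠ 0 := fun h => h1 (by rw [← neg_sub, h, neg_zero])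
      have e : 2 * FA.LiCriterion.liTerm n ρ = (zeroWeight ρ : ℂ) *
          ((1 - (1 - (1 - ρ)⁻¹) ^ n) * (1 - (1 - ρ⁻¹) ^ n)) := by
        have e1 : 1 - (1 - ρ)⁻¹ = ρ / (ρ - 1) := by
          rw [← neg_sub ρ 1, inv_neg]
          field_simp
          ring
        have e2 : 1 - ρ⁻¹ = (ρ - 1) / ρ := by field_simp
        have e3 : (ρ / (ρ - 1)) ^ n * ((ρ - 1) / ρ) ^ n = 1 := by
          rw [← mul_pow, div_mul_div_cancel₀ h1, div_self h0, one_pow]
        rw [FA.LiCriterion.liTerm, e1, e2]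
        linear_combination (zeroWeight ρ : ℂ) * (-1 : ℂ) * e3
      have ht : Tendsto (fun k : ℕ => (((1 / ((k : ℝ) + 1)) : ℝ) : ℂ)) atTop (𝓝 0) := by
        exact_mod_cast (continuous_ofReal.tendsto 0).comp tendsto_one_div_add_atTop_nhds_zero_nat
      have hlim : ∀ a : ℂ, a ≠ 0 → Tendsto
          (fun k : ℕ => 1 - (1 - (a + ((1 / ((k : ℝ) + 1) : ℝ) : ℂ))⁻¹) ^ n) atTop
          (𝓝 (1 - (1 - a⁻¹) ^ n)) := fun a ha =>
        (((by simpa using (tendsto_const_nhds (x := a)).add ht :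
          Tendsto (fun k : ℕ => a + ((1 / ((k : ℝ) + 1) : ℝ) : ℂ)) atTop (𝓝 a)).inv₀ ha).const_sub
            1 |>.pow n).const_sub 1
      rw [e]
      exact ((hlim _ h1').mul (hlim _ h0)).const_mul _
    · simp [liProd, FA.LiCriterion.liTerm, zeroWeight_eq_zero hρ]
  · rw [liProd]
    by_cases hρ : xiFn ρ = 0
    · have key : ∀ a : ℂ, |a.im| = |ρ.im| →
          ‖1 - (1 - a⁻¹) ^ n‖ ≤ (n : ℝ) * (1 + c) ^ n * c * (1 / (1 + |ρ.im|)) := fun a hi => by
        have h2 := hinv ρ a hρ hi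
        have h3 : c * (1 / (1 + |ρ.im|)) ≤ c :=
          mul_le_of_le_one_right hc.le ((div_le_one (by positivity)).2
            (le_add_of_nonneg_right (abs_nonneg _)))
        have h4 : ‖1 - a⁻¹‖ ≤ 1 + c := (norm_sub_le _ _).trans (by rw [norm_one]; linarith)
        refine (FA.LiCriterion.norm_one_sub_pow_le (by linarith) h4 n).trans ?_
        rw [sub_sub_cancel, mul_assoc ((n : ℝ) * (1 + c) ^ n) c]
        exact mul_le_mul_of_nonneg_left h2 (by positivity)
      rw [norm_mul, norm_mul, Complex.norm_natCast]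
      refine (mul_le_mul_of_nonneg_left (mul_le_mul (key _ (by simp)) (key _ (by simp))
        (norm_nonneg _) (by positivity)) (Nat.cast_nonneg _)).trans (le_of_eq ?_)
      field_simp
    · simp [zeroWeight_eq_zero hρ]

/-- **The positivity gives RH.** -/
theorem riemannHypothesis_of_nonneg (h : ∀ g : ℝ → ℝ, IsTest (fun u => (g u : ℂ)) →
    0 ≤ (∑' ρ, squareTerm (fun u => (g u : ℂ)) ρ).re) : RiemannHypothesis := by
  refine FA.LiCriterion.Summary.li_criterion.2 fun n _ => ?_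
  have h1 : ∀ k : ℕ, 0 ≤ (∑' ρ, liProd n (1 / ((k : ℝ) + 1)) ρ).re := fun k =>
    ge_of_tendsto' ((continuous_re.tendsto _).comp (tendsto_tsum_liTest n (by positivity)))
      fun m => h _ (isTest_liTest n m _)
  have h2 := ge_of_tendsto' ((continuous_re.tendsto _).comp (tendsto_tsum_liProd n)) h1
  rw [tsum_mul_left, mul_re, re_ofNat, im_ofNat, zero_mul, sub_zero,
    Complex.re_tsum (FA.LiCriterion.summable_liTerm n)] at h2
  have h3 : (∑' ρ : {ρ : ℂ // riemannZeta ρ = 0 ∧ 0 < ρ.re ∧ ρ.re < 1},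
      (FA.LiCriterion.liTerm n (ρ : ℂ)).re) = ∑' ρ : ℂ, (FA.LiCriterion.liTerm n ρ).re := by
    refine tsum_subtype_eq_of_support_subset (f := fun ρ : ℂ => (FA.LiCriterion.liTerm n ρ).re)
      (s := {ρ : ℂ | riemannZeta ρ = 0 ∧ 0 < ρ.re ∧ ρ.re < 1}) fun ρ hρ => ?_
    by_contra hne
    refine hρ ?_
    have : xiFn ρ ≠ 0 := fun hx => hne (by
      obtain ⟨a, b⟩ := xiFn_zero_strip hx
      exact ⟨(xiFn_eq_zero_iff a fun h' => by rw [h'] at b; simp at b).1 hx, a, b⟩)
    simp [FA.LiCriterion.liTerm, zeroWeight_eq_zero this]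
  have h4 : ∀ ρ : {ρ : ℂ // riemannZeta ρ = 0 ∧ 0 < ρ.re ∧ ρ.re < 1},
      (FA.LiCriterion.liTerm n (ρ : ℂ)).re =
      (analyticOrderNatAt riemannZeta (ρ : ℂ) : ℝ) *
        ((2 - ((ρ : ℂ) / (ρ - 1)) ^ n - (((ρ : ℂ) - 1) / ρ) ^ n).re / 2) := fun ρ => by
    rw [FA.LiCriterion.liTerm, ← analyticOrderNatAt_xiFn ρ.2.2.1 (fun h' => by
      have := ρ.2.2.2
      rw [h'] at this
      simp at this), ← ofReal_natCast, div_ofNat_re, re_ofReal_mul, mul_div_assoc]
    rfl
  rw [← tsum_congr h4, h3]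
  linarith

end FA.WeilExplicit

end
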